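import Mathlib
import Fermat.Prelude.Def_ModularCurve_PeriodHomPair

/-!
# The complex-conjugate cusp form `f^c(z) = conj (f (-conj z))` on `Γ₀(N)` and its primitives
-/

set_option autoImplicit false

open UpperHalfPlane CongruenceSubgroup Filter Topology Function Complex ModularCurve
  ModularCurve.Period Matrix.SpecialLinearGroup
open scoped MatrixGroups Manifold Real ComplexConjugate ModularForm Pointwise

namespace Fermat.Agent.S21

/-- `J γ = (jγ) J` in `GL(2, ℝ)`. -/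
theorem J_mul_mapGL (γ : SL(2, ℤ)) :
    (J : GL (Fin 2) ℝ) * mapGL ℝ γ = mapGL ℝ (jConjSL γ) * J := by
  ext i j
  fin_cases i <;> fin_cases j <;>
    simp [J, jConjMat, Matrix.mul_apply, Fin.sum_univ_two, Matrix.GeneralLinearGroup.mkOfDetNeZero]

theorem J_inv_eq : (J : GL (Fin 2) ℝ)⁻¹ = J := by
  have h : (J : GL (Fin 2) ℝ) * J = 1 := by rw [← sq, J_sq]
  exact inv_eq_of_mul_eq_one_right h

/-- `J⁻¹ Γ₀(N) J = Γ₀(N)` inside `GL(2, ℝ)`. -/
theorem conjAct_J_smul_Gamma0 (N : ℕ) :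
    ConjAct.toConjAct (J : GL (Fin 2) ℝ)⁻¹ • ((Gamma0 N).map (mapGL ℝ))
      = (Gamma0 N).map (mapGL ℝ) := by
  ext g
  rw [Subgroup.mem_pointwise_smul_iff_inv_smul_mem, ← map_inv, inv_inv, ConjAct.toConjAct_smul]
  constructor
  · rintro ⟨γ, hγ, hg⟩
    refine ⟨jConjSL γ, jConjSL_mem_Gamma0 hγ, ?_⟩
    have h1 : g = J⁻¹ * mapGL ℝ γ * J := by rw [hg]; group
    rw [h1, J_inv_eq, J_mul_mapGL, mul_assoc, ← sq, J_sq, mul_one]
  · rintro ⟨γ, hγ, rfl⟩
    refine ⟨jConjSL γ, jConjSL_mem_Gamma0 hγ, ?_⟩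
    rw [J_mul_mapGL, mul_assoc, mul_inv_cancel, mul_one]

/-- The complex-conjugate cusp form `f^c(z) = conj (f (-conj z))`, as a cusp form on `Γ₀(N)`. -/
noncomputable def conjForm {N : ℕ} (f : CuspForm (Gamma0 N) 2) : CuspForm (Gamma0 N) 2 where
  toFun := ⇑f ∣[(2 : ℤ)] (J : GL (Fin 2) ℝ)
  slash_action_eq' := fun γ hγ =>
    (CuspForm.translate f J).slash_action_eq' γ ((conjAct_J_smul_Gamma0 N).symm ▸ hγ)
  holo' := (CuspForm.translate f J).holo'
  zero_at_cusps' := fun {_} hc =>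
    (CuspForm.translate f J).zero_at_cusps' ((conjAct_J_smul_Gamma0 N).symm ▸ hc)

theorem conjForm_apply {N : ℕ} (f : CuspForm (Gamma0 N) 2) (τ : ℍ) :
    conjForm f τ = conj (f (J • τ)) := by
  show (⇑f ∣[(2 : ℤ)] (J : GL (Fin 2) ℝ)) τ = _
  simp [ModularForm.slash_def, J_smul]

theorem J_smul_J_smul (z : ℍ) : (J : GL (Fin 2) ℝ) • ((J : GL (Fin 2) ℝ) • z) = z := by
  rw [← mul_smul, ← sq, J_sq, one_smul]

theorem conjForm_conjForm {N : ℕ} (f : CuspForm (Gamma0 N) 2) : conjForm (conjForm f) = f := by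
  ext τ
  rw [conjForm_apply, conjForm_apply, J_smul_J_smul, Complex.conj_conj]

theorem eq_zero_of_conjForm_eq_zero {N : ℕ} {f : CuspForm (Gamma0 N) 2} (h : conjForm f = 0) :
    f = 0 := by
  rw [← conjForm_conjForm f, h]
  ext τ
  rw [conjForm_apply]
  simp

theorem J_smul_smul (γ : SL(2, ℤ)) (z : ℍ) :
    (J : GL (Fin 2) ℝ) • (γ • z) = jConjSL γ • ((J : GL (Fin 2) ℝ) • z) := by
  show J • ((mapGL ℝ γ) • z) = (mapGL ℝ (jConjSL γ)) • (J • z)
  rw [← mul_smul, ← mul_smul, J_mul_mapGL]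

theorem im_J_smul (z : ℍ) : ((J : GL (Fin 2) ℝ) • z).im = z.im := by
  rw [← coe_im, coe_J_smul]
  simp

theorem tendsto_J_smul_atImInfty :
    Tendsto (fun z : ℍ => (J : GL (Fin 2) ℝ) • z) atImInfty atImInfty := by
  rw [atImInfty, tendsto_comap_iff]
  have h : (UpperHalfPlane.im ∘ fun z : ℍ => (J : GL (Fin 2) ℝ) • z) = UpperHalfPlane.im :=
    funext im_J_smul
  rw [h]
  exact tendsto_comap

/-- The primitive of the conjugate form: `F^c(z) = - conj (F (-conj z))`. -/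
noncomputable def conjPrim (F : ℍ → ℂ) : ℍ → ℂ := fun z => - conj (F ((J : GL (Fin 2) ℝ) • z))

theorem conjPrim_apply (F : ℍ → ℂ) (z : ℍ) :
    conjPrim F z = - conj (F ((J : GL (Fin 2) ℝ) • z)) := rfl

variable {N : ℕ} {f : CuspForm (Gamma0 N) 2} {F : ℍ → ℂ}

theorem conjPrim_smul_sub (h : HasEquivariantPrimitive N f F) (γ : Gamma0 N) (z : ℍ) :
    conjPrim F ((γ : SL(2, ℤ)) • z) - conjPrim F z
      = - conj (h.2.2.1.period (jConjGamma0 N γ)) := by
  have h1 := h.2.2.1.sub_eq_period (jConjGamma0 N γ) ((J : GL (Fin 2) ℝ) • z)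
  rw [jConjGamma0_coe] at h1
  rw [conjPrim_apply, conjPrim_apply, J_smul_smul, ← h1, map_sub]
  ring

theorem hasDerivAt_conjPrim (h : HasEquivariantPrimitive N f F) (τ : ℍ) :
    HasDerivAt (conjPrim F ∘ ofComplex) (conjForm f τ) ↑τ := by
  have hG : HasDerivAt (F ∘ ofComplex) (f ((J : GL (Fin 2) ℝ) • τ)) (-(conj (τ : ℂ))) := by
    have := h.1 ((J : GL (Fin 2) ℝ) • τ)
    rwa [coe_J_smul] at this
  have h1 : HasDerivAt ((F ∘ ofComplex) ∘ Neg.neg) (f ((J : GL (Fin 2) ℝ) • τ) * (-1))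
      (conj (τ : ℂ)) :=
    HasDerivAt.comp (conj (τ : ℂ)) hG (hasDerivAt_neg _)
  have h2 := h1.conj_conj.neg
  rw [Complex.conj_conj] at h2
  have h3 : -(conj (f ((J : GL (Fin 2) ℝ) • τ) * (-1))) = conjForm f τ := by
    rw [conjForm_apply]
    simp
  rw [h3] at h2
  refine h2.congr_of_eventuallyEq ?_
  filter_upwards [isOpen_upperHalfPlaneSet.mem_nhds τ.2] with w hw
  have hw' : 0 < w.im := hw
  simp only [comp_apply, conjPrim_apply, J_smul, ofComplex_apply_of_im_pos hw', Pi.neg_apply]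

theorem hasEquivariantPrimitive_conjForm (h : HasEquivariantPrimitive N f F) :
    HasEquivariantPrimitive N (conjForm f) (conjPrim F) := by
  refine ⟨hasDerivAt_conjPrim h, ?_, fun γ => ⟨_, conjPrim_smul_sub h γ⟩, fun δ => ?_⟩
  · have h1 : Tendsto (fun z : ℍ => F ((J : GL (Fin 2) ℝ) • z)) atImInfty (𝓝 0) :=
      h.2.1.comp tendsto_J_smul_atImInfty
    have h2 := ((Complex.continuous_conj.tendsto 0).comp h1).neg
    rw [map_zero, neg_zero] at h2
    exact h2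
  · obtain ⟨L, hL⟩ := h.2.2.2 (jConjSL δ)
    refine ⟨- conj L, ?_⟩
    have h1 : Tendsto (fun w : ℍ => F (jConjSL δ • ((J : GL (Fin 2) ℝ) • w))) atImInfty (𝓝 L) :=
      hL.comp tendsto_J_smul_atImInfty
    have h2 := ((Complex.continuous_conj.tendsto L).comp h1).neg
    refine Tendsto.congr (fun w => ?_) h2
    show -conj (F (jConjSL δ • ((J : GL (Fin 2) ℝ) • w))) = -conj (F ((J : GL (Fin 2) ℝ) • (δ • w)))
    rw [J_smul_smul]

theorem period_conjForm (h : HasEquivariantPrimitive N f F) (γ : Gamma0 N) :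
    (hasEquivariantPrimitive_conjForm h).2.2.1.period γ
      = - conj (h.2.2.1.period (jConjGamma0 N γ)) := by
  rw [← (hasEquivariantPrimitive_conjForm h).2.2.1.sub_eq_period γ UpperHalfPlane.I]
  exact conjPrim_smul_sub h γ _

end Fermat.Agent.S21
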