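import Mathlib

/-!
# A maximum-modulus principle for `Γ₀(N)`-norm-invariant holomorphic functions on `ℍ`

`Fermat.Agent.S21.eq_const_of_norm_invariant`: a holomorphic function `E : ℍ → ℂ` whose norm is
invariant under `Γ₀(N)` and such that, for every `δ ∈ SL(2, ℤ)`, the function `w ↦ E (δ • w)` is
`N`-periodic and bounded at `i∞`, is constant.
-/

set_option autoImplicit false

open UpperHalfPlane CongruenceSubgroup Filter Topology Function Complex Metric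
open scoped MatrixGroups Manifold Real

namespace Fermat.Agent.S21

/-- Periodicity of `f ∘ ofComplex` on `ℂ` from periodicity on `ℍ`. -/
theorem periodic_comp_ofComplex_of_vadd {f : ℍ → ℂ} {h : ℝ}
    (hf : ∀ z : ℍ, f (h +ᵥ z) = f z) : Periodic (f ∘ ofComplex) h := by
  intro w
  by_cases hw : 0 < im w
  · have hw2 : 0 < im (w + h) := by simp [hw]
    simp only [comp_apply, ofComplex_apply_of_im_pos hw2, ofComplex_apply_of_im_pos hw]
    rw [← hf ⟨w, hw⟩]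
    congr 1
    ext
    simp [add_comm]
  · have hw' : im w ≤ 0 := not_lt.mp hw
    have hw2 : im (w + h) ≤ 0 := by simpa using hw'
    simp [ofComplex_apply_of_im_nonpos hw2, ofComplex_apply_of_im_nonpos hw']

/-- A finite-index subgroup has a finite set of right-coset representatives. -/
theorem exists_finset_coset_reps {G : Type*} [Group G] (Γ : Subgroup G) [Γ.FiniteIndex] :
    ∃ S : Finset G, S.Nonempty ∧ ∀ g : G, ∃ γ ∈ Γ, ∃ δ ∈ S, g = γ * δ := by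
  classical
  have : Finite (G ⧸ Γ) := Subgroup.finite_quotient_of_finiteIndex
  have : Fintype (G ⧸ Γ) := Fintype.ofFinite _
  refine ⟨Finset.univ.image (fun q : G ⧸ Γ => (Quotient.out q)⁻¹), ?_, ?_⟩
  · exact ⟨_, Finset.mem_image_of_mem _ (Finset.mem_univ (QuotientGroup.mk 1))⟩
  · intro g
    set q : G ⧸ Γ := QuotientGroup.mk g⁻¹ with hq
    have h1 : (QuotientGroup.mk (Quotient.out q) : G ⧸ Γ) = QuotientGroup.mk g⁻¹ :=
      QuotientGroup.out_eq' q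
    have h2 : (Quotient.out q)⁻¹ * g⁻¹ ∈ Γ := QuotientGroup.eq.mp h1
    refine ⟨((Quotient.out q)⁻¹ * g⁻¹)⁻¹, Γ.inv_mem h2, (Quotient.out q)⁻¹,
      Finset.mem_image_of_mem _ (Finset.mem_univ q), ?_⟩
    group

local notation "𝕢" => Periodic.qParam

/-- **Maximum modulus principle on `Γ₀(N)\ℍ` with cusps.** -/
theorem eq_const_of_norm_invariant {N : ℕ} [NeZero N] {E : ℍ → ℂ}
    (hE : MDifferentiable 𝓘(ℂ) 𝓘(ℂ) E)
    (hinv : ∀ γ ∈ Gamma0 N, ∀ z : ℍ, ‖E (γ • z)‖ = ‖E z‖)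
    (hper : ∀ (δ : SL(2, ℤ)) (z : ℍ), E (δ • ((N : ℝ) +ᵥ z)) = E (δ • z))
    (hbdd : ∀ δ : SL(2, ℤ), IsBoundedAtImInfty (fun w : ℍ => E (δ • w))) :
    ∃ c : ℂ, ∀ z : ℍ, E z = c := by
  classical
  have hN : (0 : ℝ) < N := Nat.cast_pos.mpr (NeZero.pos N)
  set Eδ : SL(2, ℤ) → ℍ → ℂ := fun δ w => E (δ • w) with hEδ
  have hper' : ∀ δ, Periodic (Eδ δ ∘ ofComplex) N := fun δ =>
    periodic_comp_ofComplex_of_vadd (hper δ)
  have hhol : ∀ δ, MDifferentiable 𝓘(ℂ) 𝓘(ℂ) (Eδ δ) := fun δ => by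
    have h1 : MDifferentiable 𝓘(ℂ) 𝓘(ℂ) (fun τ : ℍ => ((δ : GL (Fin 2) ℝ) • τ)) :=
      UpperHalfPlane.mdifferentiable_smul (by simp)
    exact hE.comp h1
  set G : SL(2, ℤ) → ℂ → ℂ := fun δ => UpperHalfPlane.cuspFunction N (Eδ δ) with hG
  have hGdiff : ∀ δ, DifferentiableOn ℂ (G δ) (ball 0 1) := fun δ =>
    UpperHalfPlane.differentiableOn_cuspFunction_ball hN (hper' δ) (hhol δ) (hbdd δ)
  have hGeq : ∀ δ (τ : ℍ), G δ (𝕢 N τ) = E (δ • τ) := fun δ τ =>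
    UpperHalfPlane.eq_cuspFunction τ hN.ne' (hper' δ)
  obtain ⟨S, hSne, hS⟩ := exists_finset_coset_reps (Gamma0 N)
  set r : ℝ := Real.exp (-π / N) with hr
  have hr0 : 0 ≤ r := (Real.exp_pos _).le
  have hr1 : r < 1 := by
    rw [hr, Real.exp_lt_one_iff]
    exact div_neg_of_neg_of_pos (neg_lt_zero.mpr Real.pi_pos) hN
  have hmax : ∀ δ, ∃ w ∈ closedBall (0 : ℂ) r, IsMaxOn (norm ∘ G δ) (closedBall 0 r) w :=
    fun δ => (isCompact_closedBall (0 : ℂ) r).exists_isMaxOn (nonempty_closedBall.mpr hr0)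
      ((hGdiff δ).continuousOn.mono (closedBall_subset_ball hr1)).norm
  choose w hw hwmax using hmax
  obtain ⟨δ₀, hδ₀S, hδ₀⟩ := Finset.exists_max_image S (fun δ => ‖G δ (w δ)‖) hSne
  -- global bound
  have hbound : ∀ z : ℍ, ‖E z‖ ≤ ‖G δ₀ (w δ₀)‖ := by
    intro z
    obtain ⟨g, hg⟩ := ModularGroup.exists_one_half_le_im_smul z
    obtain ⟨γ, hγ, δ, hδS, hgδ⟩ := hS g⁻¹
    have hz : z = γ • (δ • (g • z)) := by
      rw [← mul_smul, ← mul_smul, ← hgδ, inv_mul_cancel, one_smul]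
    have h1 : ‖E z‖ = ‖G δ (𝕢 N ((g • z : ℍ) : ℂ))‖ := by
      rw [hGeq]
      conv_lhs => rw [hz]
      exact hinv γ hγ _
    have h2 : 𝕢 N ((g • z : ℍ) : ℂ) ∈ closedBall (0 : ℂ) r := by
      rw [mem_closedBall_zero_iff, Periodic.norm_qParam, hr]
      apply Real.exp_le_exp.mpr
      rw [div_le_div_iff_of_pos_right hN]
      have : (1 : ℝ) / 2 ≤ ((g • z : ℍ) : ℂ).im := hg
      nlinarith [Real.pi_pos]
    calc ‖E z‖ = ‖G δ (𝕢 N ((g • z : ℍ) : ℂ))‖ := h1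
      _ ≤ ‖G δ (w δ)‖ := hwmax δ h2
      _ ≤ ‖G δ₀ (w δ₀)‖ := hδ₀ δ hδS
  have hq_ne : ∀ q ∈ ball (0 : ℂ) 1, q ≠ 0 → ‖G δ₀ q‖ ≤ ‖G δ₀ (w δ₀)‖ := by
    intro q hq hq0
    have hq' : ‖q‖ < 1 := mem_ball_zero_iff.mp hq
    have him : 0 < (Periodic.invQParam N q).im :=
      Periodic.im_invQParam_pos_of_norm_lt_one hN hq' hq0
    have : G δ₀ q = E (δ₀ • (⟨Periodic.invQParam N q, him⟩ : ℍ)) := by
      rw [← hGeq]
      congr 1
      exact (Periodic.qParam_right_inv hN.ne' hq0).symm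
    rw [this]
    exact hbound _
  have hballmax : IsMaxOn (norm ∘ G δ₀) (ball 0 1) (w δ₀) := by
    intro q hq
    simp only [Set.mem_ofPred_eq, comp_apply]
    rcases eq_or_ne q 0 with rfl | hq0
    · have hcont : ContinuousAt (G δ₀) 0 :=
        ((hGdiff δ₀).differentiableAt (ball_mem_nhds 0 one_pos)).continuousAt
      have htend : Tendsto (fun q => ‖G δ₀ q‖) (𝓝[≠] 0) (𝓝 ‖G δ₀ 0‖) :=
        (hcont.norm.tendsto).mono_left nhdsWithin_le_nhds
      refine le_of_tendsto htend ?_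
      exact eventually_nhdsWithin_iff.mpr
        (eventually_of_mem (ball_mem_nhds 0 one_pos) fun q hq hq0 => hq_ne q hq hq0)
    · exact hq_ne q hq hq0
  have hconst := Complex.eq_const_of_exists_max (hGdiff δ₀)
    (closedBall_subset_ball hr1 (hw δ₀)) hballmax
  refine ⟨G δ₀ (w δ₀), fun z => ?_⟩
  have hz : z = δ₀ • (δ₀⁻¹ • z) := by rw [← mul_smul, mul_inv_cancel, one_smul]
  rw [hz, ← hGeq]
  apply hconst
  rw [mem_ball_zero_iff]
  exact Periodic.norm_qParam_lt_one hN (δ₀⁻¹ • z).2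

end Fermat.Agent.S21
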