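import Mathlib
import Fermat.Prelude.Def_ModularCurve_PeriodMapBundled
import Fermat.Agent.S21.MaxPrinciple

/-!
# A weight-2 cusp form on `Γ₀(N)` whose periods are all purely imaginary vanishes

`Fermat.Agent.S21.eq_zero_of_re_period_eq_zero`.
-/

set_option autoImplicit false

open UpperHalfPlane CongruenceSubgroup Filter Topology Function Complex Metric ModularCurve
  ModularCurve.Period
open scoped MatrixGroups Manifold Real

namespace Fermat.Agent.S21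

/-- `δ T^N δ⁻¹ ∈ Γ₀(N)`. -/
theorem conj_T_zpow_mem_Gamma0 (N : ℕ) (δ : SL(2, ℤ)) :
    δ * ModularGroup.T ^ (N : ℤ) * δ⁻¹ ∈ Gamma0 N := by
  have h1 : ModularGroup.T ^ (N : ℤ) ∈ CongruenceSubgroup.Gamma N := by
    simpa using ModularGroup_T_pow_mem_Gamma (N : ℤ) (N : ℤ) dvd_rfl
  have h2 : δ * ModularGroup.T ^ (N : ℤ) * δ⁻¹ ∈ CongruenceSubgroup.Gamma N := (Gamma_normal N).conj_mem _ h1 δ
  exact Gamma0_mem.mpr (Gamma_mem.mp h2).2.2.1

theorem natCast_vadd_eq_T_zpow_smul (N : ℕ) (z : ℍ) :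
    ((N : ℝ) +ᵥ z) = ModularGroup.T ^ (N : ℤ) • z := by
  ext
  rw [ModularGroup.coe_T_zpow_smul_eq]
  simp [add_comm]

theorem tendsto_natCast_vadd_atImInfty (N : ℕ) :
    Tendsto (fun z : ℍ => ((N : ℝ) +ᵥ z)) atImInfty atImInfty := by
  rw [atImInfty, tendsto_comap_iff]
  have : (UpperHalfPlane.im ∘ fun z : ℍ => ((N : ℝ) +ᵥ z)) = UpperHalfPlane.im := by
    funext z
    simp
  rw [this]
  exact tendsto_comap

variable {N : ℕ} {φ : CuspForm (Gamma0 N) 2} {Φ : ℍ → ℂ}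

/-- The period of an equivariant primitive (with limits at all cusps) along `δ T^N δ⁻¹`
vanishes. -/
theorem period_conj_T_zpow_eq_zero (h : HasEquivariantPrimitive N φ Φ) (δ : SL(2, ℤ)) :
    h.2.2.1.period ⟨δ * ModularGroup.T ^ (N : ℤ) * δ⁻¹, conj_T_zpow_mem_Gamma0 N δ⟩ = 0 := by
  set γ : Gamma0 N := ⟨δ * ModularGroup.T ^ (N : ℤ) * δ⁻¹, conj_T_zpow_mem_Gamma0 N δ⟩ with hγ
  obtain ⟨L, hL⟩ := h.2.2.2 δ
  have hL' : Tendsto (fun w : ℍ => Φ (δ • ((N : ℝ) +ᵥ w))) atImInfty (𝓝 L) :=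
    hL.comp (tendsto_natCast_vadd_atImInfty N)
  have hsub : ∀ w : ℍ, Φ (δ • ((N : ℝ) +ᵥ w)) - Φ (δ • w) = h.2.2.1.period γ := by
    intro w
    rw [← h.2.2.1.sub_eq_period γ (δ • w)]
    congr 2
    rw [natCast_vadd_eq_T_zpow_smul, hγ]
    simp only [← mul_smul]
    congr 1
    group
  have h0 : Tendsto (fun w : ℍ => Φ (δ • ((N : ℝ) +ᵥ w)) - Φ (δ • w)) atImInfty (𝓝 (L - L)) :=
    hL'.sub hL
  simp only [hsub, sub_self] at h0
  exact tendsto_nhds_unique tendsto_const_nhds h0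

/-- `Φ (δ • ·)` is `N`-periodic. -/
theorem primitive_smul_vadd (h : HasEquivariantPrimitive N φ Φ) (δ : SL(2, ℤ)) (w : ℍ) :
    Φ (δ • ((N : ℝ) +ᵥ w)) = Φ (δ • w) := by
  set γ : Gamma0 N := ⟨δ * ModularGroup.T ^ (N : ℤ) * δ⁻¹, conj_T_zpow_mem_Gamma0 N δ⟩ with hγ
  have h1 := h.2.2.1.sub_eq_period γ (δ • w)
  rw [period_conj_T_zpow_eq_zero h δ, sub_eq_zero] at h1
  rw [← h1]
  congr 1
  rw [natCast_vadd_eq_T_zpow_smul, hγ]
  simp only [← mul_smul]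
  congr 1
  group

/-- **Key lemma for injectivity of the Eichler–Shimura map.** A weight-2 cusp form on `Γ₀(N)`
all of whose periods have zero real part is zero. -/
theorem eq_zero_of_re_period_eq_zero [NeZero N] (h : HasEquivariantPrimitive N φ Φ)
    (hre : ∀ γ : Gamma0 N, (h.2.2.1.period γ).re = 0) : φ = 0 := by
  set E : ℍ → ℂ := fun z => cexp (Φ z) with hEdef
  have hderiv : ∀ τ : ℍ, HasDerivAt (E ∘ ofComplex) (cexp (Φ τ) * φ τ) ↑τ := by
    intro τ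
    have h1 := (h.1 τ).cexp
    simpa [E, Function.comp_def, ofComplex_apply] using h1
  have hE : MDifferentiable 𝓘(ℂ) 𝓘(ℂ) E := fun τ =>
    mdifferentiableAt_iff.mpr (hderiv τ).differentiableAt
  have hinv : ∀ γ ∈ Gamma0 N, ∀ z : ℍ, ‖E (γ • z)‖ = ‖E z‖ := by
    intro γ hγ z
    have h1 := h.2.2.1.sub_eq_period ⟨γ, hγ⟩ z
    have h2 := hre ⟨γ, hγ⟩
    simp only [E, Complex.norm_exp]
    congr 1
    have h3 : (Φ (γ • z) - Φ z).re = 0 := by
      rw [← h2, ← h1]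
    simpa [sub_eq_zero] using h3
  have hper : ∀ (δ : SL(2, ℤ)) (z : ℍ), E (δ • ((N : ℝ) +ᵥ z)) = E (δ • z) := by
    intro δ z
    simp only [E, primitive_smul_vadd h δ z]
  have hbdd : ∀ δ : SL(2, ℤ), IsBoundedAtImInfty (fun w : ℍ => E (δ • w)) := by
    intro δ
    obtain ⟨L, hL⟩ := h.2.2.2 δ
    have h1 : Tendsto (fun w : ℍ => E (δ • w)) atImInfty (𝓝 (cexp L)) :=
      (Complex.continuous_exp.tendsto L).comp hL
    exact h1.isBigO_one ℝ
  obtain ⟨c, hc⟩ := eq_const_of_norm_invariant hE hinv hper hbdd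
  ext τ
  have h1 : HasDerivAt (E ∘ ofComplex) 0 ↑τ := by
    have h0 : E ∘ ofComplex = fun _ => c := funext fun w => hc _
    rw [h0]
    exact hasDerivAt_const _ _
  have h2 := (hderiv τ).unique h1
  have h3 : cexp (Φ τ) ≠ 0 := Complex.exp_ne_zero _
  simpa [h3] using h2

end Fermat.Agent.S21
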