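import Mathlib
import Fermat.Prelude.Def_ModularCurve_PeriodHomPair
import Fermat.Agent.S21.RePeriod
import Fermat.Agent.S21.ConjForm

/-!
# Injectivity of the Eichler–Shimura map `periodHomPair N`

`Fermat.Agent.S21.injective_periodHomPair_of`: given existence of equivariant primitives and
linearity of the period map, `ModularCurve.periodHomPair N` is injective.
-/

set_option autoImplicit false

open UpperHalfPlane CongruenceSubgroup Filter Topology Function Complex ModularCurve
  ModularCurve.Period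
open scoped MatrixGroups Manifold Real ComplexConjugate

namespace Fermat.Agent.S21

variable {N : ℕ}

theorem inj_hasEquivariantPrimitive_add {f g : CuspForm (Gamma0 N) 2} {F G : ℍ → ℂ}
    (hF : HasEquivariantPrimitive N f F) (hG : HasEquivariantPrimitive N g G) :
    HasEquivariantPrimitive N (f + g) (fun z => F z + G z) := by
  refine ⟨fun τ => (hF.1 τ).add (hG.1 τ), ?_, fun γ => ?_, fun δ => ?_⟩
  · simpa using hF.2.1.add hG.2.1
  · obtain ⟨c, hc⟩ := hF.2.2.1 γ
    obtain ⟨d, hd⟩ := hG.2.2.1 γ
    exact ⟨c + d, fun z => by rw [← hc z, ← hd z]; ring⟩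
  · obtain ⟨L, hL⟩ := hF.2.2.2 δ
    obtain ⟨L', hL'⟩ := hG.2.2.2 δ
    exact ⟨L + L', hL.add hL'⟩

theorem inj_hasEquivariantPrimitive_smul {f : CuspForm (Gamma0 N) 2} {F : ℍ → ℂ}
    (hF : HasEquivariantPrimitive N f F) (a : ℂ) :
    HasEquivariantPrimitive N (a • f) (fun z => a * F z) := by
  refine ⟨fun τ => (hF.1 τ).const_mul a, ?_, fun γ => ?_, fun δ => ?_⟩
  · simpa using hF.2.1.const_mul a
  · obtain ⟨c, hc⟩ := hF.2.2.1 γ
    exact ⟨a * c, fun z => by rw [← hc z]; ring⟩
  · obtain ⟨L, hL⟩ := hF.2.2.2 δ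
    exact ⟨a * L, hL.const_mul a⟩

/-- The key analytic statement: if the periods of `u` are the complex conjugates of the periods of
`v`, then `u = v = 0`. -/
theorem inj_key [NeZero N] {u v : CuspForm (Gamma0 N) 2} {U V : ℍ → ℂ}
    (hU : HasEquivariantPrimitive N u U) (hV : HasEquivariantPrimitive N v V)
    (h : ∀ γ : Gamma0 N, hU.2.2.1.period γ = conj (hV.2.2.1.period γ)) : u = 0 ∧ v = 0 := by
  -- `u - v` has purely imaginary periods
  have hsub : u + (-1 : ℂ) • v = 0 := by
    have hW := inj_hasEquivariantPrimitive_add hU (inj_hasEquivariantPrimitive_smul hV (-1))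
    refine eq_zero_of_re_period_eq_zero hW fun γ => ?_
    have h1 : hW.2.2.1.period γ = hU.2.2.1.period γ + (-1) * hV.2.2.1.period γ := by
      simp only [IsEquivariantPrimitive.period]
      ring
    rw [h1, h γ]
    simp
  -- `I • (u + v)` has purely imaginary periods
  have hadd : (Complex.I) • (u + v) = 0 := by
    have hW := inj_hasEquivariantPrimitive_smul (inj_hasEquivariantPrimitive_add hU hV) Complex.I
    refine eq_zero_of_re_period_eq_zero hW fun γ => ?_
    have h1 : hW.2.2.1.period γ = Complex.I * (hU.2.2.1.period γ + hV.2.2.1.period γ) := by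
      simp only [IsEquivariantPrimitive.period]
      ring
    rw [h1, h γ]
    simp
  have hadd' : u + v = 0 := (smul_eq_zero.mp hadd).resolve_left Complex.I_ne_zero
  have hu : u = 0 := by
    ext τ
    have h1 := DFunLike.congr_fun hsub τ
    have h2 := DFunLike.congr_fun hadd' τ
    simp only [add_apply, smul_apply, zero_apply, smul_eq_mul] at h1 h2
    simp only [zero_apply]
    linear_combination (1 / 2 : ℂ) * h1 + (1 / 2 : ℂ) * h2
  refine ⟨hu, ?_⟩
  rw [hu, zero_add] at hadd'
  exact hadd'

/-- If `p (jγ) = - p γ` for the periods `p` of (a primitive of) `f`, then `f = 0`. -/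
theorem inj_eq_zero_of_period_jConj_neg [NeZero N] {f : CuspForm (Gamma0 N) 2} {F : ℍ → ℂ}
    (hF : HasEquivariantPrimitive N f F)
    (h : ∀ γ : Gamma0 N, hF.2.2.1.period (jConjGamma0 N γ) = - hF.2.2.1.period γ) : f = 0 := by
  refine (inj_key hF (hasEquivariantPrimitive_conjForm hF) fun γ => ?_).1
  rw [period_conjForm hF γ, h γ]
  simp

/-- If `p (jγ) = p γ` for the periods `p` of (a primitive of) `g`, then `g = 0`. -/
theorem inj_eq_zero_of_period_jConj_eq [NeZero N] {g : CuspForm (Gamma0 N) 2} {G : ℍ → ℂ}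
    (hG : HasEquivariantPrimitive N g G)
    (h : ∀ γ : Gamma0 N, hG.2.2.1.period (jConjGamma0 N γ) = hG.2.2.1.period γ) : g = 0 := by
  have hV := inj_hasEquivariantPrimitive_smul (hasEquivariantPrimitive_conjForm hG) (-1)
  refine (inj_key hG hV fun γ => ?_).1
  have h1 : hV.2.2.1.period γ
      = (-1) * (hasEquivariantPrimitive_conjForm hG).2.2.1.period γ := by
    simp only [IsEquivariantPrimitive.period]
    ring
  rw [h1, period_conjForm hG γ, h γ]
  simp

/-- **Injectivity of the Eichler–Shimura map**, given existence of primitives and linearity of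
the period map. -/
theorem injective_periodHomPair_of (N : ℕ) [NeZero N]
    (hex : ∀ f : CuspForm (Gamma0 N) 2, ∃ F : ℍ → ℂ, HasEquivariantPrimitive N f F)
    (hlin : ExistsPeriodMapLinear N) : Function.Injective (periodHomPair N) := by
  obtain ⟨pml, hpml, hdef⟩ := periodHomPair_def N hlin
  rw [← LinearMap.ker_eq_bot, LinearMap.ker_eq_bot']
  rintro ⟨f, g⟩ h
  have hpt : ∀ γ : Gamma0 N,
      periodMap N f (Additive.ofMul γ) + periodMap N f (Additive.ofMul (jConjGamma0 N γ))
        + (periodMap N g (Additive.ofMul γ)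
          - periodMap N g (Additive.ofMul (jConjGamma0 N γ))) = 0 := by
    intro γ
    have h1 := DFunLike.congr_fun h (Additive.ofMul γ)
    rw [hdef] at h1
    simpa [LinearMap.coprod_apply, hpml, charInvolution_apply] using h1
  obtain ⟨F, hF⟩ := hex f
  obtain ⟨F₀, hF₀, hPf⟩ := periodMap_def N f hF
  obtain ⟨G, hG⟩ := hex g
  obtain ⟨G₀, hG₀, hPg⟩ := periodMap_def N g hG
  have hpt' : ∀ γ : Gamma0 N,
      hF₀.2.2.1.period γ + hF₀.2.2.1.period (jConjGamma0 N γ)
        + (hG₀.2.2.1.period γ - hG₀.2.2.1.period (jConjGamma0 N γ)) = 0 := by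
    intro γ
    have h1 := hpt γ
    rw [hPf, hPg] at h1
    simpa only [IsEquivariantPrimitive.periodHom_apply] using h1
  have hf : f = 0 := by
    refine inj_eq_zero_of_period_jConj_neg hF₀ fun γ => ?_
    have h1 := hpt' γ
    have h2 := hpt' (jConjGamma0 N γ)
    rw [jConjGamma0_jConjGamma0] at h2
    linear_combination (1 / 2 : ℂ) * h1 + (1 / 2 : ℂ) * h2
  have hg : g = 0 := by
    refine inj_eq_zero_of_period_jConj_eq hG₀ fun γ => ?_
    have h1 := hpt' γ
    have h2 := hpt' (jConjGamma0 N γ)
    rw [jConjGamma0_jConjGamma0] at h2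
    linear_combination (-(1 / 2) : ℂ) * h1 + (1 / 2 : ℂ) * h2
  rw [hf, hg]
  rfl

end Fermat.Agent.S21
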