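import Mathlib
import Fermat.Prelude.Def_ModularCurve_PeriodMap

/-!
Upper bound for the dimension of the space of parabolic homomorphisms of a finite index
subgroup `Γ` of a group `G` generated by two elements `s`, `t` with `s ^ a = 1`, `(s * t) ^ b = 1`.
The proof is finite dimensional linear algebra on functions on `G ⧸ Γ` (an explicit form of
the Shapiro lemma followed by a count of linear constraints).
-/

set_option autoImplicit false

noncomputable section

namespace Fermat.Agent.S21.ParabolicDim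

open Module

section Cocycle

variable {G : Type*} [Group G] (Γ : Subgroup G)

/-- A set-theoretic section of `G → G ⧸ Γ`. -/
def sec (x : G ⧸ Γ) : G := Quotient.out x

theorem mk_sec (x : G ⧸ Γ) : ((sec Γ x : G) : G ⧸ Γ) = x := QuotientGroup.out_eq' x

theorem smul_eq_mk (g : G) (x : G ⧸ Γ) : g • x = ((g * sec Γ x : G) : G ⧸ Γ) := by
  conv_lhs => rw [← mk_sec Γ x]
  rfl

theorem coc_mem (g : G) (x : G ⧸ Γ) : (sec Γ (g • x))⁻¹ * g * sec Γ x ∈ Γ := by
  have h : ((sec Γ (g • x) : G) : G ⧸ Γ) = ((g * sec Γ x : G) : G ⧸ Γ) := by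
    rw [mk_sec, smul_eq_mk]
  have := QuotientGroup.eq.mp h
  simpa [mul_assoc] using this

/-- The `Γ`-valued cocycle attached to the section. -/
def coc (g : G) (x : G ⧸ Γ) : Γ := ⟨(sec Γ (g • x))⁻¹ * g * sec Γ x, coc_mem Γ g x⟩

theorem coc_mul (g h : G) (x : G ⧸ Γ) : coc Γ (g * h) x = coc Γ g (h • x) * coc Γ h x := by
  apply Subtype.ext
  simp only [coc, Subgroup.coe_mul, mul_smul]
  group

theorem coc_one (x : G ⧸ Γ) : coc Γ 1 x = 1 := by
  apply Subtype.ext
  simp [coc]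

end Cocycle

section Psi

variable {G : Type*} [Group G] (Γ : Subgroup G) {A : Type*} [AddCommGroup A]

/-- The function-valued cocycle attached to an additive character of `Γ`. -/
def psi (φ : Additive Γ →+ A) (g : G) (x : G ⧸ Γ) : A := φ (Additive.ofMul (coc Γ g x))

theorem psi_mul (φ : Additive Γ →+ A) (g h : G) (x : G ⧸ Γ) :
    psi Γ φ (g * h) x = psi Γ φ g (h • x) + psi Γ φ h x := by
  simp only [psi, coc_mul, ofMul_mul, map_add]

theorem psi_one (φ : Additive Γ →+ A) (x : G ⧸ Γ) : psi Γ φ 1 x = 0 := by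
  simp only [psi, coc_one, ofMul_one, map_zero]

theorem sec_one_mem : sec Γ ((1 : G) : G ⧸ Γ) ∈ Γ := by
  have h := QuotientGroup.eq.mp (mk_sec Γ ((1 : G) : G ⧸ Γ))
  simpa using Γ.inv_mem h

theorem smul_one_coset (γ : Γ) : (γ : G) • ((1 : G) : G ⧸ Γ) = ((1 : G) : G ⧸ Γ) := by
  show (((γ : G) * 1 : G) : G ⧸ Γ) = _
  rw [QuotientGroup.eq]
  simp

theorem psi_mem (φ : Additive Γ →+ A) (γ : Γ) :
    psi Γ φ (γ : G) ((1 : G) : G ⧸ Γ) = φ (Additive.ofMul γ) := by
  set d : Γ := ⟨sec Γ ((1 : G) : G ⧸ Γ), sec_one_mem Γ⟩ with hd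
  have h : coc Γ (γ : G) ((1 : G) : G ⧸ Γ) = d⁻¹ * γ * d := by
    apply Subtype.ext
    simp only [coc, smul_one_coset, Subgroup.coe_mul, Subgroup.coe_inv, hd]
  rw [psi, h, ofMul_mul, ofMul_mul, ofMul_inv, map_add, map_add, map_neg]
  abel

end Psi

section Operators

variable {G : Type*} [Group G] (Γ : Subgroup G) (k : Type*) [Field k]

/-- Precomposition with the action of `g` on functions on `G ⧸ Γ`. -/
def pre (g : G) : ((G ⧸ Γ) → k) →ₗ[k] ((G ⧸ Γ) → k) :=
  LinearMap.funLeft k k (fun x : G ⧸ Γ => g • x)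

@[simp] theorem pre_apply (g : G) (f : (G ⧸ Γ) → k) (x : G ⧸ Γ) :
    pre Γ k g f x = f (g • x) := rfl

theorem pre_mul (g h : G) (f : (G ⧸ Γ) → k) : pre Γ k (g * h) f = pre Γ k h (pre Γ k g f) := by
  funext x
  simp only [pre_apply, mul_smul]

theorem pre_one (f : (G ⧸ Γ) → k) : pre Γ k 1 f = f := by
  funext x
  simp only [pre_apply, one_smul]

/-- The partial norm operator `∑_{i<m} pre (g^i)`. -/
def nm (g : G) (m : ℕ) : ((G ⧸ Γ) → k) →ₗ[k] ((G ⧸ Γ) → k) :=
  ∑ i ∈ Finset.range m, pre Γ k (g ^ i)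

theorem nm_apply (g : G) (m : ℕ) (f : (G ⧸ Γ) → k) (x : G ⧸ Γ) :
    nm Γ k g m f x = ∑ i ∈ Finset.range m, f (g ^ i • x) := by
  simp only [nm, LinearMap.sum_apply, Finset.sum_apply, pre_apply]

theorem psi_pow (φ : Additive Γ →+ k) (g : G) (m : ℕ) :
    psi Γ φ (g ^ m) = nm Γ k g m (psi Γ φ g) := by
  induction m with
  | zero =>
    funext x
    simp [nm_apply, psi_one]
  | succ m ih =>
    funext x
    rw [pow_succ, psi_mul, ih, nm_apply, nm_apply, Finset.sum_range_succ']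
    simp only [pow_zero, one_smul, pow_succ, mul_smul]

/-- Telescoping: the norm of a difference. -/
theorem nm_pre_sub (g : G) (m : ℕ) (f : (G ⧸ Γ) → k) :
    nm Γ k g m (pre Γ k g f - f) = pre Γ k (g ^ m) f - f := by
  funext x
  rw [nm_apply]
  simp only [Pi.sub_apply, pre_apply]
  have : ∀ i : ℕ, f (g • g ^ i • x) = f (g ^ (i + 1) • x) := by
    intro i
    rw [pow_succ', mul_smul]
  simp only [this]
  rw [Finset.sum_range_sub (fun i => f (g ^ i • x))]
  simp only [pow_zero, one_smul]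

end Operators

section Invariants

variable {G : Type*} [Group G] (Γ : Subgroup G) (k : Type*) [Field k]

/-- Functions on `G ⧸ Γ` invariant under `g`. -/
def inv (g : G) : Submodule k ((G ⧸ Γ) → k) := LinearMap.ker (pre Γ k g - LinearMap.id)

variable {Γ k}

theorem mem_inv {g : G} {f : (G ⧸ Γ) → k} : f ∈ inv Γ k g ↔ ∀ x, f (g • x) = f x := by
  simp only [inv, LinearMap.mem_ker, LinearMap.sub_apply, LinearMap.id_apply, sub_eq_zero]
  constructor
  · intro h x
    exact congrFun h x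
  · intro h
    funext x
    exact h x

theorem mem_inv_iff_pre {g : G} {f : (G ⧸ Γ) → k} : f ∈ inv Γ k g ↔ pre Γ k g f = f := by
  simp only [inv, LinearMap.mem_ker, LinearMap.sub_apply, LinearMap.id_apply, sub_eq_zero]

theorem inv_zpow {g : G} {f : (G ⧸ Γ) → k} (hf : f ∈ inv Γ k g) (n : ℤ) (x : G ⧸ Γ) :
    f (g ^ n • x) = f x := by
  rw [mem_inv] at hf
  induction n using Int.induction_on generalizing x with
  | zero => simp
  | succ n ih => rw [zpow_add_one, mul_smul, ih, hf]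
  | pred n ih =>
    rw [zpow_sub_one, mul_smul, ih]
    have := hf (g⁻¹ • x)
    rw [smul_inv_smul] at this
    exact this.symm

theorem inv_pow {g : G} {f : (G ⧸ Γ) → k} (hf : f ∈ inv Γ k g) (n : ℕ) (x : G ⧸ Γ) :
    f (g ^ n • x) = f x := by
  have := inv_zpow hf (n : ℤ) x
  simpa using this

/-- A function invariant under two generators of `G` is constant. -/
theorem const_of_inv {s t : G} (hgen : Subgroup.closure {s, t} = ⊤) {f : (G ⧸ Γ) → k}
    (hs : f ∈ inv Γ k s) (ht : f ∈ inv Γ k t) (x y : G ⧸ Γ) : f x = f y := by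
  have key : ∀ g : G, ∀ z : G ⧸ Γ, f (g • z) = f z := by
    intro g
    have hg : g ∈ Subgroup.closure {s, t} := by rw [hgen]; exact Subgroup.mem_top g
    induction hg using Subgroup.closure_induction with
    | mem g hg =>
      rcases hg with rfl | rfl
      · exact mem_inv.mp hs
      · exact mem_inv.mp ht
    | one => intro z; rw [one_smul]
    | mul g h _ _ ihg ihh => intro z; rw [mul_smul, ihg, ihh]
    | inv g _ ih =>
      intro z
      have := ih (g⁻¹ • z)
      rw [smul_inv_smul] at this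
      exact this.symm
  obtain ⟨g, rfl⟩ := MulAction.exists_smul_eq G y x
  exact key g y

variable (Γ k)

/-- The invariants of `g` are the functions on the orbit space of `zpowers g`. -/
def invEquiv (g : G) :
    inv Γ k g ≃ₗ[k] (MulAction.orbitRel.Quotient (Subgroup.zpowers g) (G ⧸ Γ) → k) where
  toFun f := fun q => Quotient.liftOn' q (f : (G ⧸ Γ) → k) (by
    intro x y hxy
    change x ∈ MulAction.orbit (Subgroup.zpowers g) y at hxy
    obtain ⟨⟨h, hh⟩, rfl⟩ := hxy
    obtain ⟨n, rfl⟩ := Subgroup.mem_zpowers_iff.mp hh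
    exact inv_zpow f.2 n y)
  map_add' f₁ f₂ := by
    funext q
    induction q using Quotient.inductionOn'
    rfl
  map_smul' c f := by
    funext q
    induction q using Quotient.inductionOn'
    rfl
  invFun h := ⟨fun x => h (Quotient.mk'' x), by
    rw [mem_inv]
    intro x
    congr 1
    apply Quotient.sound'
    change g • x ∈ MulAction.orbit (Subgroup.zpowers g) x
    exact ⟨⟨g, Subgroup.mem_zpowers g⟩, rfl⟩⟩
  left_inv f := by
    apply Subtype.ext
    funext x
    rfl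
  right_inv h := by
    funext q
    induction q using Quotient.inductionOn'
    rfl

theorem finrank_inv [Finite (G ⧸ Γ)] (g : G) :
    finrank k (inv Γ k g) =
      Nat.card (MulAction.orbitRel.Quotient (Subgroup.zpowers g) (G ⧸ Γ)) := by
  have : Finite (MulAction.orbitRel.Quotient (Subgroup.zpowers g) (G ⧸ Γ)) :=
    Quotient.finite _
  let _ := Fintype.ofFinite (MulAction.orbitRel.Quotient (Subgroup.zpowers g) (G ⧸ Γ))
  rw [(invEquiv Γ k g).finrank_eq, Module.finrank_fintype_fun_eq_card, Nat.card_eq_fintype_card]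

end Invariants

section Norm

variable {G : Type*} [Group G] (Γ : Subgroup G) (k : Type*) [Field k]

theorem pre_pow_of_trivial {g : G} {m : ℕ} (hg : ∀ x : G ⧸ Γ, g ^ m • x = x)
    (f : (G ⧸ Γ) → k) : pre Γ k (g ^ m) f = f := by
  funext x
  rw [pre_apply, hg]

/-- Differences `f ∘ g - f` are killed by the norm when `g ^ m` acts trivially. -/
theorem nm_pre_sub_eq_zero {g : G} {m : ℕ} (hg : ∀ x : G ⧸ Γ, g ^ m • x = x)
    (f : (G ⧸ Γ) → k) : nm Γ k g m (pre Γ k g f - f) = 0 := by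
  rw [nm_pre_sub, pre_pow_of_trivial Γ k hg, sub_self]

theorem nm_mem_inv {g : G} {m : ℕ} (hg : ∀ x : G ⧸ Γ, g ^ m • x = x)
    (f : (G ⧸ Γ) → k) : nm Γ k g m f ∈ inv Γ k g := by
  rw [mem_inv_iff_pre]
  have h := nm_pre_sub_eq_zero Γ k hg f
  have hcomm : nm Γ k g m (pre Γ k g f) = pre Γ k g (nm Γ k g m f) := by
    funext x
    simp only [nm_apply, pre_apply]
    refine Finset.sum_congr rfl fun i _ => ?_
    rw [← mul_smul, ← mul_smul, ← pow_succ, ← pow_succ']
  rw [map_sub, sub_eq_zero, hcomm] at h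
  exact h

theorem nm_of_mem_inv {g : G} {m : ℕ} {f : (G ⧸ Γ) → k} (hf : f ∈ inv Γ k g) :
    nm Γ k g m f = (m : k) • f := by
  funext x
  rw [nm_apply]
  simp only [inv_pow hf, Finset.sum_const, Finset.card_range, Pi.smul_apply, smul_eq_mul,
    nsmul_eq_mul]

theorem range_nm [CharZero k] {g : G} {m : ℕ} (hm : 0 < m) (hg : ∀ x : G ⧸ Γ, g ^ m • x = x) :
    LinearMap.range (nm Γ k g m) = inv Γ k g := by
  apply le_antisymm
  · rintro _ ⟨f, rfl⟩
    exact nm_mem_inv Γ k hg f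
  · intro f hf
    refine ⟨(m : k)⁻¹ • f, ?_⟩
    rw [map_smul, nm_of_mem_inv Γ k hf, smul_smul, inv_mul_cancel₀, one_smul]
    exact_mod_cast hm.ne'

theorem finrank_ker_nm [CharZero k] [Finite (G ⧸ Γ)] {g : G} {m : ℕ} (hm : 0 < m)
    (hg : ∀ x : G ⧸ Γ, g ^ m • x = x) :
    finrank k (LinearMap.ker (nm Γ k g m)) +
      Nat.card (MulAction.orbitRel.Quotient (Subgroup.zpowers g) (G ⧸ Γ)) = Nat.card (G ⧸ Γ) := by
  let _ := Fintype.ofFinite (G ⧸ Γ)
  have h := LinearMap.finrank_range_add_finrank_ker (nm Γ k g m)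
  rw [range_nm Γ k hm hg, finrank_inv, Module.finrank_fintype_fun_eq_card,
    ← Nat.card_eq_fintype_card] at h
  omega

end Norm

section Augmentation

variable {G : Type*} [Group G] (Γ : Subgroup G) (k : Type*) [Field k] [Fintype (G ⧸ Γ)]

/-- The augmentation `f ↦ ∑ x, f x`. -/
def aug : ((G ⧸ Γ) → k) →ₗ[k] k := ∑ x : G ⧸ Γ, LinearMap.proj x

theorem aug_apply (f : (G ⧸ Γ) → k) : aug Γ k f = ∑ x, f x := by
  simp only [aug, LinearMap.sum_apply, LinearMap.proj_apply]

/-- If `pre g f - f` lies in a submodule `I` for two generators `g` (and all `f`), then the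
kernel of the augmentation lies in `I`. -/
theorem ker_aug_le {s t : G} (hgen : Subgroup.closure {s, t} = ⊤)
    (I : Submodule k ((G ⧸ Γ) → k))
    (hs : ∀ f, pre Γ k s f - f ∈ I) (ht : ∀ f, pre Γ k t f - f ∈ I) :
    LinearMap.ker (aug Γ k) ≤ I := by
  classical
  have key : ∀ g : G, ∀ f, pre Γ k g f - f ∈ I := by
    intro g
    have hg : g ∈ Subgroup.closure {s, t} := by rw [hgen]; exact Subgroup.mem_top g
    induction hg using Subgroup.closure_induction with
    | mem g hg =>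
      rcases hg with rfl | rfl
      · exact hs
      · exact ht
    | one => intro f; rw [pre_one, sub_self]; exact I.zero_mem
    | mul g h _ _ ihg ihh =>
      intro f
      have : pre Γ k (g * h) f - f = (pre Γ k h (pre Γ k g f) - pre Γ k g f) + (pre Γ k g f - f) := by
        rw [pre_mul]; abel
      rw [this]
      exact I.add_mem (ihh _) (ihg _)
    | inv g _ ih =>
      intro f
      have h1 : pre Γ k g (pre Γ k g⁻¹ f) = f := by
        rw [← pre_mul, inv_mul_cancel, pre_one]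
      have : pre Γ k g⁻¹ f - f = -(pre Γ k g (pre Γ k g⁻¹ f) - pre Γ k g⁻¹ f) := by
        rw [h1]; abel
      rw [this]
      exact I.neg_mem (ih _)
  intro f hf
  rw [LinearMap.mem_ker, aug_apply] at hf
  set x₀ : G ⧸ Γ := ((1 : G) : G ⧸ Γ) with hx₀
  have hdiff : ∀ x : G ⧸ Γ, (Pi.single x (1 : k) - Pi.single x₀ (1 : k) : (G ⧸ Γ) → k) ∈ I := by
    intro x
    obtain ⟨g, hg⟩ := MulAction.exists_smul_eq G x x₀
    have : pre Γ k g (Pi.single x₀ (1 : k)) = Pi.single x (1 : k) := by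
      funext y
      rw [pre_apply]
      by_cases hy : y = x
      · subst hy
        rw [hg, Pi.single_eq_same, Pi.single_eq_same]
      · rw [Pi.single_eq_of_ne hy, Pi.single_eq_of_ne]
        intro h
        apply hy
        rw [← hg] at h
        exact (MulAction.injective g h)
    rw [← this]
    exact key g _
  have hf' : f = ∑ x, f x • (Pi.single x (1 : k) - Pi.single x₀ (1 : k)) := by
    have h1 : f = ∑ x, f x • (Pi.single x (1 : k) : (G ⧸ Γ) → k) := by
      conv_lhs => rw [← Finset.univ_sum_single f]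
      refine Finset.sum_congr rfl fun x _ => ?_
      funext y
      simp [Pi.single_apply]
    have h2 : ∑ x, f x • (Pi.single x₀ (1 : k) : (G ⧸ Γ) → k) = 0 := by
      rw [← Finset.sum_smul, hf, zero_smul]
    simp only [smul_sub, Finset.sum_sub_distrib, h2, sub_zero]
    exact h1
  rw [hf']
  exact I.sum_mem fun x _ => I.smul_mem _ (hdiff x)

end Augmentation

section Count

variable {G : Type*} [Group G] (Γ : Subgroup G) (k : Type*) [Field k] [CharZero k]
  [Fintype (G ⧸ Γ)] (s t : G) (a b c : ℕ)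

/-- The ambient space of pairs `(ψ s, ψ t)` satisfying the two "unary" norm conditions. -/
abbrev ZZero : Type _ :=
  ↥(LinearMap.ker (nm Γ k s a)) × ↥(LinearMap.ker (nm Γ k t c))

/-- The third (mixed) norm condition, for `u = s * t`. -/
def lam : ZZero Γ k s t a c →ₗ[k] ((G ⧸ Γ) → k) :=
  (nm Γ k (s * t) b) ∘ₗ
    ((pre Γ k t) ∘ₗ (LinearMap.ker (nm Γ k s a)).subtype ∘ₗ LinearMap.fst k _ _ +
      (LinearMap.ker (nm Γ k t c)).subtype ∘ₗ LinearMap.snd k _ _)

omit [CharZero k] [Fintype (G ⧸ Γ)] in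
theorem lam_apply (p : ZZero Γ k s t a c) :
    lam Γ k s t a b c p =
      nm Γ k (s * t) b (pre Γ k t (p.1 : (G ⧸ Γ) → k) + (p.2 : (G ⧸ Γ) → k)) := rfl

variable {s t a b c}

theorem closure_t_u (hgen : Subgroup.closure {s, t} = ⊤) :
    Subgroup.closure {t, s * t} = ⊤ := by
  rw [eq_top_iff, ← hgen, Subgroup.closure_le]
  rintro g (rfl | rfl)
  · have h1 : g * t ∈ Subgroup.closure {t, g * t} :=
      Subgroup.subset_closure (by simp)
    have h2 : t ∈ Subgroup.closure {t, g * t} := Subgroup.subset_closure (by simp)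
    have := Subgroup.mul_mem _ h1 (Subgroup.inv_mem _ h2)
    simpa using this
  · exact Subgroup.subset_closure (by simp)

theorem inf_le_range_lam (hgen : Subgroup.closure {s, t} = ⊤) (hb : 0 < b)
    (hu : ∀ x : G ⧸ Γ, (s * t) ^ b • x = x) (ht : ∀ x : G ⧸ Γ, t ^ c • x = x) :
    inv Γ k (s * t) ⊓ LinearMap.ker (aug Γ k) ≤ LinearMap.range (lam Γ k s t a b c) := by
  rintro h ⟨hinv, haug⟩
  have hI : LinearMap.ker (aug Γ k) ≤
      LinearMap.ker (nm Γ k t c) ⊔ LinearMap.ker (nm Γ k (s * t) b) := by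
    apply ker_aug_le Γ k (closure_t_u hgen)
    · intro f
      exact Submodule.mem_sup_left (nm_pre_sub_eq_zero Γ k ht f)
    · intro f
      exact Submodule.mem_sup_right (nm_pre_sub_eq_zero Γ k hu f)
  have hbk : (b : k) ≠ 0 := by exact_mod_cast hb.ne'
  have hf : (b : k)⁻¹ • h ∈ LinearMap.ker (aug Γ k) := Submodule.smul_mem _ _ haug
  obtain ⟨β, hβ, κ, hκ, hsum⟩ := Submodule.mem_sup.mp (hI hf)
  refine ⟨(0, ⟨β, hβ⟩), ?_⟩
  rw [lam_apply]
  simp only [Submodule.coe_zero, map_zero, zero_add]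
  have h1 : nm Γ k (s * t) b β = nm Γ k (s * t) b ((b : k)⁻¹ • h) := by
    rw [← hsum, map_add, LinearMap.mem_ker.mp hκ, add_zero]
  rw [h1, map_smul, nm_of_mem_inv Γ k hinv, smul_smul, inv_mul_cancel₀ hbk, one_smul]

theorem card_orbits_le_finrank_range_lam (hgen : Subgroup.closure {s, t} = ⊤) (hb : 0 < b)
    (hu : ∀ x : G ⧸ Γ, (s * t) ^ b • x = x) (ht : ∀ x : G ⧸ Γ, t ^ c • x = x) :
    Nat.card (MulAction.orbitRel.Quotient (Subgroup.zpowers (s * t)) (G ⧸ Γ)) ≤
      finrank k (LinearMap.range (lam Γ k s t a b c)) + 1 := by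
  have h1 := Submodule.finrank_sup_add_finrank_inf_eq (inv Γ k (s * t)) (LinearMap.ker (aug Γ k))
  have h2 := LinearMap.finrank_range_add_finrank_ker (aug Γ k)
  have h3 : finrank k (LinearMap.range (aug Γ k)) ≤ 1 := by
    have := Submodule.finrank_le (LinearMap.range (aug Γ k))
    rwa [Module.finrank_self] at this
  have h4 := Submodule.finrank_le (inv Γ k (s * t) ⊔ LinearMap.ker (aug Γ k))
  have h5 := Submodule.finrank_mono (inf_le_range_lam Γ k (a := a) hgen hb hu ht)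
  rw [finrank_inv] at h1
  omega

theorem finrank_ker_lam_le (hgen : Subgroup.closure {s, t} = ⊤) (ha : 0 < a) (hb : 0 < b)
    (hc : 0 < c) (hs : ∀ x : G ⧸ Γ, s ^ a • x = x)
    (hu : ∀ x : G ⧸ Γ, (s * t) ^ b • x = x) (ht : ∀ x : G ⧸ Γ, t ^ c • x = x) :
    finrank k (LinearMap.ker (lam Γ k s t a b c)) +
      Nat.card (MulAction.orbitRel.Quotient (Subgroup.zpowers s) (G ⧸ Γ)) +
      Nat.card (MulAction.orbitRel.Quotient (Subgroup.zpowers t) (G ⧸ Γ)) +
      Nat.card (MulAction.orbitRel.Quotient (Subgroup.zpowers (s * t)) (G ⧸ Γ)) ≤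
      2 * Nat.card (G ⧸ Γ) + 1 := by
  have h1 := LinearMap.finrank_range_add_finrank_ker (lam Γ k s t a b c)
  have h2 : finrank k (ZZero Γ k s t a c) =
      finrank k (LinearMap.ker (nm Γ k s a)) + finrank k (LinearMap.ker (nm Γ k t c)) :=
    Module.finrank_prod
  have h3 := finrank_ker_nm Γ k ha hs
  have h4 := finrank_ker_nm Γ k hc ht
  have h5 := card_orbits_le_finrank_range_lam Γ k (a := a) hgen hb hu ht
  omega

/-- Coboundaries, as elements of `ZZero`. -/
def dz (hs : ∀ x : G ⧸ Γ, s ^ a • x = x) (ht : ∀ x : G ⧸ Γ, t ^ c • x = x) :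
    ((G ⧸ Γ) → k) →ₗ[k] ZZero Γ k s t a c :=
  LinearMap.prod
    (LinearMap.codRestrict _ (pre Γ k s - LinearMap.id) fun f => by
      rw [LinearMap.mem_ker]; exact nm_pre_sub_eq_zero Γ k hs f)
    (LinearMap.codRestrict _ (pre Γ k t - LinearMap.id) fun f => by
      rw [LinearMap.mem_ker]; exact nm_pre_sub_eq_zero Γ k ht f)

omit [CharZero k] [Fintype (G ⧸ Γ)] in
theorem dz_apply_fst (hs : ∀ x : G ⧸ Γ, s ^ a • x = x) (ht : ∀ x : G ⧸ Γ, t ^ c • x = x)
    (f : (G ⧸ Γ) → k) : ((dz Γ k hs ht f).1 : (G ⧸ Γ) → k) = pre Γ k s f - f := rfl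

omit [CharZero k] [Fintype (G ⧸ Γ)] in
theorem dz_apply_snd (hs : ∀ x : G ⧸ Γ, s ^ a • x = x) (ht : ∀ x : G ⧸ Γ, t ^ c • x = x)
    (f : (G ⧸ Γ) → k) : ((dz Γ k hs ht f).2 : (G ⧸ Γ) → k) = pre Γ k t f - f := rfl

omit [CharZero k] [Fintype (G ⧸ Γ)] in
theorem range_dz_le (hs : ∀ x : G ⧸ Γ, s ^ a • x = x) (ht : ∀ x : G ⧸ Γ, t ^ c • x = x)
    (hu : ∀ x : G ⧸ Γ, (s * t) ^ b • x = x) :
    LinearMap.range (dz Γ k hs ht) ≤ LinearMap.ker (lam Γ k s t a b c) := by
  rintro _ ⟨f, rfl⟩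
  rw [LinearMap.mem_ker, lam_apply, dz_apply_fst, dz_apply_snd]
  have : pre Γ k t (pre Γ k s f - f) + (pre Γ k t f - f) = pre Γ k (s * t) f - f := by
    rw [map_sub, pre_mul]; abel
  rw [this]
  exact nm_pre_sub_eq_zero Γ k hu f

omit [CharZero k] in
theorem finrank_range_dz (hgen : Subgroup.closure {s, t} = ⊤)
    (hs : ∀ x : G ⧸ Γ, s ^ a • x = x) (ht : ∀ x : G ⧸ Γ, t ^ c • x = x) :
    finrank k (LinearMap.range (dz Γ k hs ht)) + 1 = Nat.card (G ⧸ Γ) := by
  have h1 := LinearMap.finrank_range_add_finrank_ker (dz Γ k hs ht)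
  have h2 : LinearMap.ker (dz Γ k hs ht) = Submodule.span k {fun _ => (1 : k)} := by
    apply le_antisymm
    · intro f hf
      rw [LinearMap.mem_ker, Prod.ext_iff] at hf
      have hfs : f ∈ inv Γ k s := by
        rw [mem_inv_iff_pre, ← sub_eq_zero, ← dz_apply_fst Γ k hs ht, hf.1]; rfl
      have hft : f ∈ inv Γ k t := by
        rw [mem_inv_iff_pre, ← sub_eq_zero, ← dz_apply_snd Γ k hs ht, hf.2]; rfl
      rw [Submodule.mem_span_singleton]
      refine ⟨f ((1 : G) : G ⧸ Γ), ?_⟩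
      funext x
      simp only [Pi.smul_apply, smul_eq_mul, mul_one]
      exact const_of_inv hgen hfs hft _ _
    · rw [Submodule.span_le]
      rintro _ rfl
      rw [SetLike.mem_coe, LinearMap.mem_ker]
      apply Prod.ext
      · apply Subtype.ext
        rw [dz_apply_fst]
        funext x
        simp
      · apply Subtype.ext
        rw [dz_apply_snd]
        funext x
        simp
  have h3 : finrank k (LinearMap.ker (dz Γ k hs ht)) = 1 := by
    rw [h2]
    apply finrank_span_singleton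
    intro h
    have := congrFun h ((1 : G) : G ⧸ Γ)
    simp at this
  rw [h3, Module.finrank_fintype_fun_eq_card, ← Nat.card_eq_fintype_card] at h1
  exact h1

end Count

section Main

variable {G : Type*} [Group G] (Γ : Subgroup G) (k : Type*) [Field k]

/-- `φ ↦ ψ_φ g` as a linear map. -/
def psiLin (g : G) : (Additive Γ →+ k) →ₗ[k] ((G ⧸ Γ) → k) where
  toFun φ := psi Γ φ g
  map_add' φ₁ φ₂ := by funext x; rfl
  map_smul' c φ := by funext x; rfl

@[simp] theorem psiLin_apply (g : G) (φ : Additive Γ →+ k) : psiLin Γ k g φ = psi Γ φ g := rfl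

variable {Γ k}

/-- If `ψ_φ` agrees with a coboundary on two generators, then `φ = 0`. -/
theorem eq_zero_of_psi_eq {s t : G} (hgen : Subgroup.closure {s, t} = ⊤)
    (φ : Additive Γ →+ k) (f : (G ⧸ Γ) → k)
    (hs : psi Γ φ s = pre Γ k s f - f) (ht : psi Γ φ t = pre Γ k t f - f) : φ = 0 := by
  have key : ∀ g : G, ∀ x : G ⧸ Γ, psi Γ φ g x = f (g • x) - f x := by
    intro g
    have hg : g ∈ Subgroup.closure {s, t} := by rw [hgen]; exact Subgroup.mem_top g
    induction hg using Subgroup.closure_induction with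
    | mem g hg =>
      rcases hg with rfl | rfl
      · intro x; rw [hs]; rfl
      · intro x; rw [ht]; rfl
    | one => intro x; rw [psi_one, one_smul, sub_self]
    | mul g h _ _ ihg ihh =>
      intro x
      rw [psi_mul, ihg, ihh, mul_smul]
      ring
    | inv g _ ih =>
      intro x
      have h1 := psi_mul Γ φ g g⁻¹ x
      rw [mul_inv_cancel, psi_one, ih, smul_inv_smul] at h1
      linear_combination -h1
  apply AddMonoidHom.ext
  intro γ
  have h := psi_mem Γ φ (Additive.toMul γ)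
  rw [key, smul_one_coset, sub_self] at h
  rw [AddMonoidHom.zero_apply]
  exact h.symm

variable (Γ k)
variable [CharZero k] [Fintype (G ⧸ Γ)]

/-- **Abstract dimension bound.**  Let `G` be generated by `s` and `t`, with `s ^ a = 1`,
`(s * t) ^ b = 1` and `t ^ c` acting trivially on `G ⧸ Γ`.  Let `P` be a space of additive
characters of `Γ` vanishing on all conjugates of `t ^ c` contained in `Γ`.  Then
`dim P + #orbits(s) + #orbits(t) + #orbits(s * t) ≤ [G : Γ] + 2`. -/
theorem finrank_add_card_orbits_le {s t : G} {a b c : ℕ}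
    (hgen : Subgroup.closure {s, t} = ⊤) (ha : 0 < a) (hb : 0 < b) (hc : 0 < c)
    (hs : s ^ a = 1) (hu : (s * t) ^ b = 1) (ht : ∀ x : G ⧸ Γ, t ^ c • x = x)
    (P : Submodule k (Additive Γ →+ k))
    (hP : ∀ φ ∈ P, ∀ (g : G) (h : g⁻¹ * t ^ c * g ∈ Γ), φ (Additive.ofMul ⟨_, h⟩) = 0) :
    Module.Finite k P ∧
    finrank k P +
      Nat.card (MulAction.orbitRel.Quotient (Subgroup.zpowers s) (G ⧸ Γ)) +
      Nat.card (MulAction.orbitRel.Quotient (Subgroup.zpowers t) (G ⧸ Γ)) +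
      Nat.card (MulAction.orbitRel.Quotient (Subgroup.zpowers (s * t)) (G ⧸ Γ)) ≤
      Nat.card (G ⧸ Γ) + 2 := by
  have hs' : ∀ x : G ⧸ Γ, s ^ a • x = x := fun x => by rw [hs, one_smul]
  have hu' : ∀ x : G ⧸ Γ, (s * t) ^ b • x = x := fun x => by rw [hu, one_smul]
  -- the two unary conditions
  have h1 : ∀ φ : P, psiLin Γ k s (φ : Additive Γ →+ k) ∈ LinearMap.ker (nm Γ k s a) := by
    intro φ
    rw [LinearMap.mem_ker, psiLin_apply, ← psi_pow, hs]
    funext x
    exact psi_one Γ _ x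
  have h2 : ∀ φ : P, psiLin Γ k t (φ : Additive Γ →+ k) ∈ LinearMap.ker (nm Γ k t c) := by
    intro φ
    rw [LinearMap.mem_ker, psiLin_apply, ← psi_pow]
    funext x
    have hmem : (sec Γ x)⁻¹ * t ^ c * sec Γ x ∈ Γ := by
      have := coc_mem Γ (t ^ c) x
      rwa [ht x] at this
    have hcoc : coc Γ (t ^ c) x = ⟨(sec Γ x)⁻¹ * t ^ c * sec Γ x, hmem⟩ := by
      apply Subtype.ext
      simp only [coc, ht x]
    rw [psi, hcoc]
    exact hP φ φ.2 (sec Γ x) hmem
  -- the embedding into `ZZero`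
  let E : P →ₗ[k] ZZero Γ k s t a c :=
    LinearMap.prod
      (LinearMap.codRestrict _ (psiLin Γ k s ∘ₗ P.subtype) h1)
      (LinearMap.codRestrict _ (psiLin Γ k t ∘ₗ P.subtype) h2)
  have hE1 : ∀ φ : P, ((E φ).1 : (G ⧸ Γ) → k) = psi Γ (φ : Additive Γ →+ k) s := fun _ => rfl
  have hE2 : ∀ φ : P, ((E φ).2 : (G ⧸ Γ) → k) = psi Γ (φ : Additive Γ →+ k) t := fun _ => rfl
  have hEker : LinearMap.range E ≤ LinearMap.ker (lam Γ k s t a b c) := by
    rintro _ ⟨φ, rfl⟩
    rw [LinearMap.mem_ker, lam_apply, hE1, hE2]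
    have : pre Γ k t (psi Γ (φ : Additive Γ →+ k) s) + psi Γ (φ : Additive Γ →+ k) t =
        psi Γ (φ : Additive Γ →+ k) (s * t) := by
      funext x
      rw [psi_mul]; rfl
    rw [this, ← psi_pow, hu]
    funext x
    exact psi_one Γ _ x
  have hkey : ∀ (φ : P) (f : (G ⧸ Γ) → k), E φ = dz Γ k hs' ht f → φ = 0 := by
    intro φ f h
    apply Subtype.ext
    rw [Submodule.coe_zero]
    apply eq_zero_of_psi_eq hgen _ f
    · rw [← hE1, h, dz_apply_fst]
    · rw [← hE2, h, dz_apply_snd]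
  have hEinj : Function.Injective E := by
    rw [injective_iff_map_eq_zero]
    intro φ h
    exact hkey φ 0 (by rw [h, map_zero])
  have hdisj : Disjoint (LinearMap.range E) (LinearMap.range (dz Γ k hs' ht)) := by
    rw [Submodule.disjoint_def]
    rintro _ ⟨φ, rfl⟩ ⟨f, hf⟩
    rw [hkey φ f hf.symm, map_zero]
  have hfin : Module.Finite k P := Module.Finite.of_injective E hEinj
  refine ⟨hfin, ?_⟩
  have e1 : finrank k (LinearMap.range E) = finrank k P :=
    LinearMap.finrank_range_of_inj hEinj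
  have e2 := finrank_range_dz Γ k hgen hs' ht
  have e3 := Submodule.finrank_sup_add_finrank_inf_eq (LinearMap.range E)
    (LinearMap.range (dz Γ k hs' ht))
  rw [hdisj.eq_bot, finrank_bot, add_zero] at e3
  have e4 : finrank k ↥(LinearMap.range E ⊔ LinearMap.range (dz Γ k hs' ht)) ≤
      finrank k (LinearMap.ker (lam Γ k s t a b c)) :=
    Submodule.finrank_mono (sup_le hEker (range_dz_le Γ k hs' ht hu'))
  have e5 := finrank_ker_lam_le Γ k hgen ha hb hc hs' hu' ht
  omega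

end Main

section SL2Z

open scoped MatrixGroups
open ModularGroup CongruenceSubgroup ModularCurve.Period

theorem S_pow_four : (S : SL(2, ℤ)) ^ 4 = 1 := by decide

theorem S_mul_T_pow_six : ((S * T : SL(2, ℤ))) ^ 6 = 1 := by decide

theorem conj_T_pow_mem_Gamma (N : ℕ) (g : SL(2, ℤ)) : g⁻¹ * T ^ N * g ∈ Gamma N := by
  have h : T ^ N ∈ Gamma N := by
    have := ModularGroup_T_pow_mem_Gamma (N : ℤ) (N : ℤ) dvd_rfl
    simpa using this
  have := (Gamma_normal N).conj_mem _ h g⁻¹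
  simpa using this

theorem Gamma_le_Gamma0 (N : ℕ) : Gamma N ≤ Gamma0 N := by
  intro A hA
  rw [Gamma_mem] at hA
  rw [Gamma0_mem]
  exact hA.2.2.1

theorem conj_T_pow_mem_Gamma0 (N : ℕ) (g : SL(2, ℤ)) : g⁻¹ * T ^ N * g ∈ Gamma0 N :=
  Gamma_le_Gamma0 N (conj_T_pow_mem_Gamma N g)

theorem trace_conj_T_pow (N : ℕ) (g : SL(2, ℤ)) :
    ((g⁻¹ * T ^ N * g : SL(2, ℤ)) : Matrix (Fin 2) (Fin 2) ℤ).trace = 2 := by
  rw [Matrix.SpecialLinearGroup.coe_mul, Matrix.SpecialLinearGroup.coe_mul, Matrix.trace_mul_comm,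
    ← Matrix.mul_assoc, ← Matrix.SpecialLinearGroup.coe_mul, mul_inv_cancel,
    Matrix.SpecialLinearGroup.coe_one, Matrix.one_mul]
  have := coe_T_zpow (N : ℤ)
  rw [zpow_natCast] at this
  rw [this]
  simp [Matrix.trace_fin_two]

theorem T_pow_smul_coset (N : ℕ) (x : SL(2, ℤ) ⧸ Gamma0 N) : (T : SL(2, ℤ)) ^ N • x = x := by
  induction x using QuotientGroup.induction_on with
  | H g =>
    rw [MulAction.Quotient.smul_mk, QuotientGroup.eq, smul_eq_mul]
    have h := inv_mem (conj_T_pow_mem_Gamma0 N g)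
    have e : (g⁻¹ * T ^ N * g)⁻¹ = (T ^ N * g)⁻¹ * g := by group
    rw [← e]
    exact h

/-- **Dimension bound for parabolic homomorphisms of `Γ₀(N)`**:
`dim_ℂ Hom_par(Γ₀(N), ℂ) + ε_S + ε_T + ε_{ST} ≤ [SL₂(ℤ) : Γ₀(N)] + 2`, where `ε_g` is the
number of orbits of `⟨g⟩` on `SL₂(ℤ) ⧸ Γ₀(N)`. -/
theorem finrank_parabolicHoms_Gamma0_add_le (N : ℕ) [NeZero N] :
    Module.Finite ℂ (parabolicHoms ℂ (Gamma0 N) ℂ) ∧
    finrank ℂ (parabolicHoms ℂ (Gamma0 N) ℂ) +
      Nat.card (MulAction.orbitRel.Quotient (Subgroup.zpowers (S : SL(2, ℤ)))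
        (SL(2, ℤ) ⧸ Gamma0 N)) +
      Nat.card (MulAction.orbitRel.Quotient (Subgroup.zpowers (T : SL(2, ℤ)))
        (SL(2, ℤ) ⧸ Gamma0 N)) +
      Nat.card (MulAction.orbitRel.Quotient (Subgroup.zpowers (S * T : SL(2, ℤ)))
        (SL(2, ℤ) ⧸ Gamma0 N)) ≤
      Nat.card (SL(2, ℤ) ⧸ Gamma0 N) + 2 := by
  have : Fintype (SL(2, ℤ) ⧸ Gamma0 N) := Fintype.ofFinite _
  refine finrank_add_card_orbits_le (Gamma0 N) ℂ (a := 4) (b := 6) (c := N)
    SpecialLinearGroup.SL2Z_generators (by norm_num) (by norm_num) (NeZero.pos N)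
    S_pow_four S_mul_T_pow_six (T_pow_smul_coset N) _ ?_
  intro φ hφ g h
  apply hφ
  rw [trace_conj_T_pow]
  norm_num

end SL2Z

end Fermat.Agent.S21.ParabolicDim
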