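import Mathlib
import Fermat.Prelude.Def_ModularCurve_PeriodMap
import Fermat.Prelude.Def_ModularCurve_GenusNumerics
import Fermat.Agent.S21.ParabolicDim
import Fermat.Agent.S24.PartV.Main

/-!
Unconditional form: `dim_ℂ Hom_par(Γ₀(N), ℂ) ≤ 2 * genusFormula N`, from the constraint count of
`ParabolicDim.lean` and the orbit counts of `S24/PartV/Main.lean`.
-/

set_option autoImplicit false

namespace Fermat.Agent.S21.ParabolicDim

open scoped MatrixGroups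
open Module ModularGroup CongruenceSubgroup ModularCurve ModularCurve.Period
open Fermat.Agent.S24.PartV

/-- `Hom_par(Γ₀(N), ℂ)` is finite dimensional of dimension at most `2 g(X₀(N))`. -/
theorem finrank_parabolicHoms_Gamma0_le (N : ℕ) [NeZero N] :
    Module.Finite ℂ (parabolicHoms ℂ (Gamma0 N) ℂ) ∧
      (finrank ℂ (parabolicHoms ℂ (Gamma0 N) ℂ) : ℚ) ≤ 2 * genusFormula N := by
  obtain ⟨hfin, hle⟩ := finrank_parabolicHoms_Gamma0_add_le N
  refine ⟨hfin, ?_⟩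
  have h2 := two_mul_orbCount_S N
  have h3 := three_mul_orbCount_ST N
  have hT := orbCount_T N
  have hn := card_coset N
  change finrank ℂ (parabolicHoms ℂ (Gamma0 N) ℂ) + orbCount (SL(2, ℤ) ⧸ Gamma0 N) S
    + orbCount (SL(2, ℤ) ⧸ Gamma0 N) T + orbCount (SL(2, ℤ) ⧸ Gamma0 N) (S * T)
    ≤ Nat.card (SL(2, ℤ) ⧸ Gamma0 N) + 2 at hle
  rw [hT, hn] at hle
  have hle' : (finrank ℂ (parabolicHoms ℂ (Gamma0 N) ℂ) : ℚ)
      + (orbCount (SL(2, ℤ) ⧸ Gamma0 N) S : ℚ) + (cuspCount N : ℚ)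
      + (orbCount (SL(2, ℤ) ⧸ Gamma0 N) (S * T) : ℚ) ≤ (dedekindPsi N : ℚ) + 2 := by
    exact_mod_cast hle
  have h2' : (2 : ℚ) * (orbCount (SL(2, ℤ) ⧸ Gamma0 N) S : ℚ)
      = (dedekindPsi N : ℚ) + (nuTwo N : ℚ) := by
    exact_mod_cast h2
  have h3' : (3 : ℚ) * (orbCount (SL(2, ℤ) ⧸ Gamma0 N) (S * T) : ℚ) =
      (dedekindPsi N : ℚ) + 2 * (nuThree N : ℚ) := by
    exact_mod_cast h3
  unfold genusFormula
  linarith

theorem finite_parabolicHoms_Gamma0 (N : ℕ) [NeZero N] :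
    Module.Finite ℂ (parabolicHoms ℂ (Gamma0 N) ℂ) :=
  (finrank_parabolicHoms_Gamma0_le N).1

theorem finrank_parabolicHoms_Gamma0_le' (N : ℕ) [NeZero N] :
    (finrank ℂ (parabolicHoms ℂ (Gamma0 N) ℂ) : ℚ) ≤ 2 * genusFormula N :=
  (finrank_parabolicHoms_Gamma0_le N).2

end Fermat.Agent.S21.ParabolicDim
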