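import Fermat.Agent.S21.Primitive
import Fermat.Prelude.Def_ModularCurve_PeriodHomPair
import Fermat.Prelude.Thm_Subgroup_IsArithmetic_exists_nat_mem_strictPeriods_conj
import Mathlib.NumberTheory.ModularForms.ArithmeticSubgroups
import Mathlib.NumberTheory.ModularForms.Cusps
import Mathlib.NumberTheory.ModularForms.BoundedAtCusp

/-!
S21, analytic half: existence and uniqueness of the equivariant primitive of a weight two cusp form,
linearity of the period map.
-/

set_option autoImplicit false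

open Complex Filter Function Topology CongruenceSubgroup ModularForm
open UpperHalfPlane hiding I
open Matrix.SpecialLinearGroup
open scoped Manifold Real MatrixGroups

namespace Fermat.Agent.S21

/-- `F` is a primitive of `f` on the upper half plane. -/
def IsPrimitiveOf (f F : ℍ → ℂ) : Prop :=
  ∀ τ : ℍ, HasDerivAt (F ∘ ofComplex) (f τ) (τ : ℂ)

/-- For every `δ ∈ SL(2,ℤ)` the function `F ∘ δ` is a decaying function plus a constant. -/
def CuspDecomp (M : ℕ) (F : ℍ → ℂ) : Prop :=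
  ∀ δ : SL(2, ℤ), ∃ (G : ℍ → ℂ) (L : ℂ), IsDecaying M G ∧ ∀ w : ℍ, F (δ • w) = G w + L

theorem IsPrimitiveOf.sub {f g F G : ℍ → ℂ} (hF : IsPrimitiveOf f F) (hG : IsPrimitiveOf g G) :
    IsPrimitiveOf (f - g) (F - G) := fun τ => (hF τ).sub (hG τ)

theorem IsPrimitiveOf.add {f g F G : ℍ → ℂ} (hF : IsPrimitiveOf f F) (hG : IsPrimitiveOf g G) :
    IsPrimitiveOf (f + g) (F + G) := fun τ => (hF τ).add (hG τ)

theorem IsPrimitiveOf.const_smul {f F : ℍ → ℂ} (hF : IsPrimitiveOf f F) (c : ℂ) :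
    IsPrimitiveOf (c • f) (c • F) := fun τ => (hF τ).const_smul c

theorem IsPrimitiveOf.mdiff {f F : ℍ → ℂ} (hF : IsPrimitiveOf f F) : MDiff F := by
  rw [UpperHalfPlane.mdifferentiable_iff]
  intro z hz
  exact (hF ⟨z, hz⟩).differentiableAt.differentiableWithinAt

/-- Two primitives of the same function differ by a constant. -/
theorem IsPrimitiveOf.sub_const {f F G : ℍ → ℂ} (hF : IsPrimitiveOf f F) (hG : IsPrimitiveOf f G)
    (z w : ℍ) : F z - G z = F w - G w := by
  have h : ∀ τ : ℍ, HasDerivAt ((F - G) ∘ ofComplex) 0 (τ : ℂ) := fun τ => by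
    have h := (hF τ).sub (hG τ)
    rw [sub_self] at h
    exact h
  exact eq_of_hasDerivAt_zero h z w

/-- Chain rule for the Möbius action. -/
theorem IsPrimitiveOf.comp_smul {f F : ℍ → ℂ} (hF : IsPrimitiveOf f F) {g : GL (Fin 2) ℝ}
    (hg : 0 < g.val.det) :
    IsPrimitiveOf (fun τ => f (g • τ) * ((g.val.det : ℂ) / denom g τ ^ 2))
      (fun w => F (g • w)) := by
  intro τ
  have h1 : ((fun w : ℍ => F (g • w)) ∘ ofComplex)
      = (F ∘ ofComplex) ∘ (fun z : ℂ => ((g • ofComplex z : ℍ) : ℂ)) := by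
    funext z
    simp only [Function.comp_apply, ofComplex_apply]
  rw [h1]
  have h2 := (hasStrictDerivAt_smul hg τ).hasDerivAt
  have h3 : HasDerivAt (F ∘ ofComplex) (f (g • τ)) (((g • ofComplex (τ : ℂ) : ℍ)) : ℂ) := by
    rw [ofComplex_apply]
    exact hF (g • τ)
  exact h3.comp (τ : ℂ) h2

theorem val_det_mapGL (δ : SL(2, ℤ)) : (mapGL ℝ δ : GL (Fin 2) ℝ).val.det = 1 := by
  rw [← Matrix.GeneralLinearGroup.val_det_apply, det_mapGL]
  rfl

theorem IsPrimitiveOf.comp_SL {f F : ℍ → ℂ} (hF : IsPrimitiveOf f F) (δ : SL(2, ℤ)) :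
    IsPrimitiveOf (f ∣[(2 : ℤ)] δ) (fun w => F (δ • w)) := by
  have hdet : (0 : ℝ) < (mapGL ℝ δ : GL (Fin 2) ℝ).val.det := by
    rw [val_det_mapGL]; exact one_pos
  have h := hF.comp_smul hdet
  intro τ
  have h1 := h τ
  have h2 : (f ∣[(2 : ℤ)] δ) τ
      = f ((mapGL ℝ δ : GL (Fin 2) ℝ) • τ) *
        ((((mapGL ℝ δ : GL (Fin 2) ℝ).val.det : ℝ) : ℂ) / denom (mapGL ℝ δ) τ ^ 2) := by
    rw [val_det_mapGL, SL_slash_apply, Complex.ofReal_one, one_div, zpow_neg]
    rfl
  rw [h2]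
  exact h1

section Gamma0

set_option linter.unusedSectionVars false

variable (N : ℕ) [NeZero N]

local notation "Γ" => (Subgroup.map (mapGL ℝ) (Gamma0 N) : Subgroup (GL (Fin 2) ℝ))

theorem isDecaying_one (f : CuspForm (Gamma0 N) 2) : IsDecaying 1 f where
  mdiff := CuspFormClass.holo f
  periodic := by
    have h1 : (1 : ℝ) ∈ (Subgroup.map (mapGL ℝ) (Gamma0 N)).strictPeriods := by
      simp [CongruenceSubgroup.strictPeriods_Gamma0]
    simpa using SlashInvariantFormClass.periodic_comp_ofComplex f h1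
  zero := CuspFormClass.zero_at_infty f

theorem isCusp_smul_infty (δ : SL(2, ℤ)) : IsCusp (mapGL ℝ δ • OnePoint.infty) Γ :=
  (Subgroup.IsArithmetic.isCusp_iff_isCusp_SL2Z Γ).mpr (isCusp_SL2Z_iff'.mpr ⟨δ, rfl⟩)

theorem exists_uniform_period :
    ∃ M : ℕ, 0 < M ∧ ∀ (f : CuspForm (Gamma0 N) 2) (δ : SL(2, ℤ)),
      IsDecaying M (⇑f ∣[(2 : ℤ)] δ) := by
  obtain ⟨M, hM, hper⟩ := Subgroup.IsArithmetic.exists_nat_mem_strictPeriods_conj Γ
  refine ⟨M, hM, fun f δ => ⟨?_, ?_, ?_⟩⟩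
  · exact (CuspFormClass.holo f).slash 2 (mapGL ℝ δ)
  · have h1 := hper δ⁻¹
    rw [map_inv] at h1
    have h2 := SlashInvariantFormClass.periodic_comp_ofComplex
      (CuspForm.translate f (mapGL ℝ δ)) h1
    exact h2
  · exact CuspForm.zero_at_cusps' f (isCusp_smul_infty N δ) (mapGL ℝ δ) rfl

/-- The equivariant primitive of a weight two cusp form exists, with control at all cusps. -/
theorem exists_primitive_cuspForm (f : CuspForm (Gamma0 N) 2) :
    ∃ F : ℍ → ℂ, IsPrimitiveOf f F ∧ IsDecaying 1 F ∧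
      ∀ M : ℕ, 0 < M → (∀ δ : SL(2, ℤ), IsDecaying M (⇑f ∣[(2 : ℤ)] δ)) → CuspDecomp M F := by
  obtain ⟨F, hFdec, hF⟩ := exists_primitive one_pos (isDecaying_one N f)
  refine ⟨F, hF, hFdec, fun M hM hdec δ => ?_⟩
  obtain ⟨G, hGdec, hG⟩ := exists_primitive (Nat.cast_pos.mpr hM) (hdec δ)
  refine ⟨G, F (δ • UpperHalfPlane.I) - G UpperHalfPlane.I, hGdec, fun w => ?_⟩
  have h1 : IsPrimitiveOf (⇑f ∣[(2 : ℤ)] δ) (fun w => F (δ • w)) := IsPrimitiveOf.comp_SL hF δ
  have h2 := h1.sub_const hG w UpperHalfPlane.I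
  linear_combination h2

open ModularCurve ModularCurve.Period

theorem hasEquivariantPrimitive_of {f : CuspForm (Gamma0 N) 2} {F : ℍ → ℂ}
    (hF : IsPrimitiveOf f F) (hdec : IsDecaying 1 F) {M : ℕ} (hcd : CuspDecomp M F) :
    HasEquivariantPrimitive N f F := by
  refine ⟨hF, hdec.zero, ?_, ?_⟩
  · intro γ
    refine ⟨F ((γ : SL(2, ℤ)) • UpperHalfPlane.I) - F UpperHalfPlane.I, fun z => ?_⟩
    have h1 : IsPrimitiveOf (⇑f ∣[(2 : ℤ)] (γ : SL(2, ℤ))) (fun w => F ((γ : SL(2, ℤ)) • w)) :=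
      hF.comp_SL γ
    have h2 : (⇑f ∣[(2 : ℤ)] (γ : SL(2, ℤ))) = ⇑f :=
      SlashInvariantFormClass.slash_action_eq f (mapGL ℝ (γ : SL(2, ℤ))) ⟨γ, γ.2, rfl⟩
    rw [h2] at h1
    exact h1.sub_const hF z UpperHalfPlane.I
  · intro δ
    obtain ⟨G, L, hG, h⟩ := hcd δ
    refine ⟨L, ?_⟩
    have h1 : Tendsto (fun w => G w + L) atImInfty (𝓝 (0 + L)) := Tendsto.add_const L hG.zero
    rw [zero_add] at h1
    exact h1.congr fun w => (h w).symm

/-- Every weight two cusp form on `Γ₀(N)` has an equivariant primitive. -/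
theorem exists_hasEquivariantPrimitive (f : CuspForm (Gamma0 N) 2) :
    ∃ F : ℍ → ℂ, HasEquivariantPrimitive N f F := by
  obtain ⟨M, hM, hdec⟩ := exists_uniform_period N
  obtain ⟨F, hF, hFdec, hcd⟩ := exists_primitive_cuspForm N f
  exact ⟨F, hasEquivariantPrimitive_of N hF hFdec (hcd M hM (hdec f))⟩

theorem primitive_unique_aux {f : CuspForm (Gamma0 N) 2} {F₁ F₂ : ℍ → ℂ}
    (h₁ : HasEquivariantPrimitive N f F₁) (h₂ : HasEquivariantPrimitive N f F₂) : F₁ = F₂ := by
  funext z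
  have hc : ∀ w, F₁ w - F₂ w = F₁ z - F₂ z := fun w => IsPrimitiveOf.sub_const h₁.1 h₂.1 w z
  have ht : Tendsto (fun w => F₁ w - F₂ w) atImInfty (𝓝 (0 - 0)) := h₁.2.1.sub h₂.2.1
  have ht' : Tendsto (fun w => F₁ w - F₂ w) atImInfty (𝓝 (F₁ z - F₂ z)) := by
    simp_rw [hc]
    exact tendsto_const_nhds
  have h := tendsto_nhds_unique ht ht'
  linear_combination -h

/-- The period map is computed by any equivariant primitive, at any base point. -/
theorem periodMap_apply_aux {f : CuspForm (Gamma0 N) 2} {F : ℍ → ℂ}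
    (hF : HasEquivariantPrimitive N f F) (γ : Gamma0 N) (z : ℍ) :
    periodMap N f (Additive.ofMul γ) = F ((γ : SL(2, ℤ)) • z) - F z := by
  obtain ⟨F₀, h₀, heq⟩ := periodMap_def N f hF
  have h : F₀ = F := primitive_unique_aux N h₀ hF
  subst h
  rw [heq, IsEquivariantPrimitive.periodHom_apply,
    ← IsEquivariantPrimitive.sub_eq_period h₀.2.2.1 γ z]

theorem HasEquivariantPrimitive.add' {f g : CuspForm (Gamma0 N) 2} {F G : ℍ → ℂ}
    (hF : HasEquivariantPrimitive N f F) (hG : HasEquivariantPrimitive N g G) :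
    HasEquivariantPrimitive N (f + g) (F + G) := by
  refine ⟨fun τ => (hF.1 τ).add (hG.1 τ), ?_, ?_, ?_⟩
  · have h := hF.2.1.add hG.2.1
    rw [add_zero] at h
    exact h
  · intro γ
    obtain ⟨c, hc⟩ := hF.2.2.1 γ
    obtain ⟨d, hd⟩ := hG.2.2.1 γ
    refine ⟨c + d, fun z => ?_⟩
    simp only [Pi.add_apply]
    linear_combination hc z + hd z
  · intro δ
    obtain ⟨L, hL⟩ := hF.2.2.2 δ
    obtain ⟨L', hL'⟩ := hG.2.2.2 δ
    exact ⟨L + L', hL.add hL'⟩

theorem HasEquivariantPrimitive.smul' {f : CuspForm (Gamma0 N) 2} {F : ℍ → ℂ}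
    (hF : HasEquivariantPrimitive N f F) (c : ℂ) :
    HasEquivariantPrimitive N (c • f) (c • F) := by
  refine ⟨fun τ => (hF.1 τ).const_smul c, ?_, ?_, ?_⟩
  · have h := hF.2.1.const_smul c
    rw [smul_zero] at h
    exact h
  · intro γ
    obtain ⟨d, hd⟩ := hF.2.2.1 γ
    refine ⟨c * d, fun z => ?_⟩
    simp only [Pi.smul_apply, smul_eq_mul]
    linear_combination c * hd z
  · intro δ
    obtain ⟨L, hL⟩ := hF.2.2.2 δ
    exact ⟨c • L, hL.const_smul c⟩

/-- The period map as a linear map. -/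
noncomputable def periodMapLinear :
    CuspForm (Gamma0 N) 2 →ₗ[ℂ] (Additive (Gamma0 N) →+ ℂ) where
  toFun f := periodMap N f
  map_add' f g := by
    obtain ⟨F, hF⟩ := exists_hasEquivariantPrimitive N f
    obtain ⟨G, hG⟩ := exists_hasEquivariantPrimitive N g
    refine AddMonoidHom.ext fun γ => ?_
    have h := periodMap_apply_aux N (HasEquivariantPrimitive.add' N hF hG) (Additive.toMul γ)
      UpperHalfPlane.I
    have h1 := periodMap_apply_aux N hF (Additive.toMul γ) UpperHalfPlane.I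
    have h2 := periodMap_apply_aux N hG (Additive.toMul γ) UpperHalfPlane.I
    simp only [ofMul_toMul] at h h1 h2
    rw [AddMonoidHom.add_apply, h, h1, h2]
    simp only [Pi.add_apply]
    ring
  map_smul' c f := by
    obtain ⟨F, hF⟩ := exists_hasEquivariantPrimitive N f
    refine AddMonoidHom.ext fun γ => ?_
    have h := periodMap_apply_aux N (HasEquivariantPrimitive.smul' N hF c) (Additive.toMul γ)
      UpperHalfPlane.I
    have h1 := periodMap_apply_aux N hF (Additive.toMul γ) UpperHalfPlane.I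
    simp only [ofMul_toMul] at h h1
    rw [RingHom.id_apply, AddMonoidHom.smul_apply, h, h1]
    simp only [Pi.smul_apply, smul_eq_mul]
    ring

@[simp] theorem periodMapLinear_apply (f : CuspForm (Gamma0 N) 2) :
    periodMapLinear N f = periodMap N f := rfl

theorem existsPeriodMapLinear : ExistsPeriodMapLinear N :=
  ⟨periodMapLinear N, fun _ => rfl⟩

end Gamma0

end Fermat.Agent.S21
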