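/-
S21 (D): periods of parabolic elements vanish, hence `periodMap N f` is a parabolic hom.
-/
import Fermat.Agent.S21.PeriodMap

set_option autoImplicit false

namespace Fermat.Agent.S21

open ModularCurve ModularCurve.Period CongruenceSubgroup UpperHalfPlane Filter Topology
open scoped MatrixGroups

/-- An element of `SL(2, ℤ)` with trace `±2` has a primitive integral eigenvector. -/
theorem exists_primitive_eigenvector (γ : SL(2, ℤ))
    (h : (γ : Matrix (Fin 2) (Fin 2) ℤ).trace ^ 2 = 4) :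
    ∃ ε p q : ℤ, IsCoprime p q ∧ γ 0 0 * p + γ 0 1 * q = ε * p ∧
      γ 1 0 * p + γ 1 1 * q = ε * q := by
  have hdet : γ 0 0 * γ 1 1 - γ 0 1 * γ 1 0 = 1 := by
    have := γ.det_coe
    rw [Matrix.det_fin_two] at this
    exact this
  have htr : (γ 0 0 + γ 1 1) ^ 2 = 4 := by
    rw [Matrix.trace_fin_two] at h
    exact h
  obtain ⟨ε, hε, hsum⟩ : ∃ ε : ℤ, ε ^ 2 = 1 ∧ γ 0 0 + γ 1 1 = 2 * ε := by
    have : (γ 0 0 + γ 1 1 - 2) * (γ 0 0 + γ 1 1 + 2) = 0 := by linear_combination htr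
    rcases mul_eq_zero.mp this with h1 | h1
    · exact ⟨1, by norm_num, by linarith⟩
    · exact ⟨-1, by norm_num, by linarith⟩
  refine ⟨ε, ?_⟩
  by_cases hb : γ 0 1 = 0
  · refine ⟨0, 1, isCoprime_zero_left.mpr isUnit_one, by simp [hb], ?_⟩
    have had : γ 0 0 * γ 1 1 = 1 := by rw [hb] at hdet; linarith
    have hsq : (γ 1 1 - ε) ^ 2 = 0 := by
      linear_combination hε + (γ 1 1) * hsum - had
    have : γ 1 1 - ε = 0 := by simpa using hsq
    simp only [mul_zero, mul_one, zero_add]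
    linarith
  · have hg : 0 < Int.gcd (γ 0 1) (γ 0 0 - ε) := Int.gcd_pos_of_ne_zero_left _ hb
    obtain ⟨p, n, hpn, hp, hn⟩ := Int.exists_gcd_one hg
    set g : ℤ := (Int.gcd (γ 0 1) (γ 0 0 - ε) : ℤ) with hgdef
    have hg0 : g ≠ 0 := by
      have : (0 : ℤ) < g := by rw [hgdef]; exact_mod_cast hg
      exact this.ne'
    refine ⟨p, -n, ?_, ?_, ?_⟩
    · exact (Int.isCoprime_iff_gcd_eq_one.mpr hpn).neg_right
    · -- `(a - ε) p - b n = 0`
      have : (γ 0 0 - ε) * p - γ 0 1 * n = 0 := by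
        rw [hp, hn]; ring
      linarith
    · -- multiply by `g`
      have hkey : g * (γ 1 0 * p + γ 1 1 * -n - ε * -n) = 0 := by
        have e1 : g * p = γ 0 1 := by rw [hp]; ring
        have e2 : g * n = γ 0 0 - ε := by rw [hn]; ring
        have : g * (γ 1 0 * p + γ 1 1 * -n - ε * -n)
            = γ 1 0 * (g * p) - (γ 1 1 - ε) * (g * n) := by ring
        rw [this, e1, e2]
        linear_combination (-1 : ℤ) * hdet + hε + ε * hsum
      have := (mul_eq_zero.mp hkey).resolve_left hg0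
      linarith

/-- An element of `SL(2, ℤ)` with trace `±2` is conjugate in `SL(2, ℤ)` to an upper triangular
matrix. -/
theorem exists_conj_lower_left_eq_zero (γ : SL(2, ℤ))
    (h : (γ : Matrix (Fin 2) (Fin 2) ℤ).trace ^ 2 = 4) :
    ∃ δ : SL(2, ℤ), (δ⁻¹ * γ * δ) 1 0 = 0 := by
  obtain ⟨ε, p, q, hpq, h1, h2⟩ := exists_primitive_eigenvector γ h
  obtain ⟨δ, hδ0, hδ1⟩ := hpq.exists_SL2_col 0
  refine ⟨δ, ?_⟩
  simp only [Matrix.SpecialLinearGroup.coe_mul, Matrix.SpecialLinearGroup.coe_inv,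
    Matrix.adjugate_fin_two, Matrix.mul_apply, Fin.sum_univ_two, Matrix.of_apply,
    Matrix.cons_val_zero, Matrix.cons_val_one, Matrix.cons_val']
  rw [hδ0, hδ1]
  linear_combination (-q) * h1 + p * h2

/-- If `F (γ • z) - F z` is constant, `F ∘ δ` has a limit at `i∞` for every `δ : SL(2, ℤ)`, and
`γ` has trace `±2`, then `F (γ • z) = F z`. -/
theorem sub_eq_zero_of_trace_sq {F : ℍ → ℂ} (γ : SL(2, ℤ))
    (hconst : ∃ c : ℂ, ∀ z : ℍ, F (γ • z) - F z = c)
    (hlim : ∀ δ : SL(2, ℤ), ∃ L : ℂ, Tendsto (fun w : ℍ => F (δ • w)) atImInfty (𝓝 L))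
    (htr : (γ : Matrix (Fin 2) (Fin 2) ℤ).trace ^ 2 = 4) (z : ℍ) : F (γ • z) - F z = 0 := by
  obtain ⟨δ, hδ⟩ := exists_conj_lower_left_eq_zero γ htr
  obtain ⟨c, hc⟩ := hconst
  obtain ⟨L, hL⟩ := hlim δ
  set η : SL(2, ℤ) := δ⁻¹ * γ * δ with hη
  have hη' : ∀ w : ℍ, F (δ • (η • w)) - F (δ • w) = c := by
    intro w
    rw [← hc (δ • w)]
    congr 2
    rw [hη]
    simp only [← mul_smul]
    congr 1
    group
  have htend : Tendsto (fun w : ℍ => η • w) atImInfty atImInfty := by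
    have h10 : (Matrix.SpecialLinearGroup.mapGL ℝ η : GL (Fin 2) ℝ) 1 0 = 0 := by
      rw [Matrix.SpecialLinearGroup.mapGL_coe_matrix]
      simp [hδ]
    exact tendsto_smul_atImInfty h10
  have h1 : Tendsto (fun w : ℍ => F (δ • (η • w))) atImInfty (𝓝 L) := hL.comp htend
  have h2 : Tendsto (fun w : ℍ => F (δ • (η • w)) - F (δ • w)) atImInfty (𝓝 (L - L)) :=
    h1.sub hL
  simp only [hη', sub_self] at h2
  rw [hc z]
  exact tendsto_nhds_unique tendsto_const_nhds h2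

/-- (D) the period map of a weight two cusp form kills parabolic elements. -/
theorem periodMap_mem_parabolicHoms (N : ℕ) [NeZero N] (f : CuspForm (Gamma0 N) 2) :
    periodMap N f ∈ parabolicHoms ℂ (Gamma0 N) ℂ := by
  obtain ⟨F, hF⟩ := exists_hasEquivariantPrimitive N f
  intro γ hγ
  rw [periodMap_apply_aux N hF γ UpperHalfPlane.I]
  exact sub_eq_zero_of_trace_sq (γ : SL(2, ℤ)) (hF.2.2.1 γ) hF.2.2.2 hγ _

end Fermat.Agent.S21
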