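import Fermat.Agent.S21.Glue
import Fermat.Agent.S21.PeriodMap
import Fermat.Agent.S21.ParabolicVanish
import Fermat.Agent.S21.ParabolicDimFinal
import Fermat.Agent.S21.Injective

/-!
# S21 from S20: the complete assembly, with the S20 statement as its only hypothesis.
-/

set_option autoImplicit false

open ModularCurve ModularCurve.Period CongruenceSubgroup Module

namespace Fermat.Agent.S21

/-- **S21 modulo S20.** Everything except the dimension formula `dim S₂(Γ₀(N)) = g` is proved. -/
theorem s21_of_s20 (N : ℕ) [NeZero N]
    (h20 : (finrank ℂ (CuspForm (Gamma0 N) 2) : ℚ) = genusFormula N) :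
    Function.Injective (periodHomPair N)
      ∧ LinearMap.range (periodHomPair N) = parabolicHoms ℂ (Gamma0 N) ℂ :=
  Glue.s21_of N
    (injective_periodHomPair_of N (exists_hasEquivariantPrimitive N) (existsPeriodMapLinear N))
    (Glue.range_periodHomPair_le_of N (periodMap_mem_parabolicHoms N))
    h20
    (ParabolicDim.finite_parabolicHoms_Gamma0 N)
    (ParabolicDim.finrank_parabolicHoms_Gamma0_le' N)

end Fermat.Agent.S21
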