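/-
S21 basics: uniqueness of equivariant primitives, the formula for `periodMap`, and linearity of
the period map once primitives exist.
-/
import Fermat.Prelude.Def_ModularCurve_PeriodHomPair
import Mathlib

set_option autoImplicit false

namespace Fermat.Agent.S21.Glue

open ModularCurve ModularCurve.Period CongruenceSubgroup UpperHalfPlane Filter Topology
open scoped MatrixGroups

/-- Two functions on the upper half plane with the same complex derivative differ by a constant. -/
theorem exists_eq_add_of_hasDerivAt {F G f : ℍ → ℂ}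
    (hF : ∀ τ : ℍ, HasDerivAt (F ∘ ofComplex) (f τ) ↑τ)
    (hG : ∀ τ : ℍ, HasDerivAt (G ∘ ofComplex) (f τ) ↑τ) :
    ∃ c : ℂ, ∀ τ : ℍ, F τ = G τ + c := by
  have hopen : IsOpen upperHalfPlaneSet := isOpen_upperHalfPlaneSet
  have hconn : IsPreconnected upperHalfPlaneSet := (convex_halfSpace_im_gt 0).isPreconnected
  have hd : ∀ z ∈ upperHalfPlaneSet,
      HasDerivAt (fun w => (F ∘ ofComplex) w - (G ∘ ofComplex) w) 0 z := by
    intro z hz
    have h1 := hF ⟨z, hz⟩
    have h2 := hG ⟨z, hz⟩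
    have := h1.sub h2
    rw [sub_self] at this
    exact this
  obtain ⟨a, ha⟩ := hopen.exists_is_const_of_deriv_eq_zero hconn
    (fun z hz => (hd z hz).differentiableAt.differentiableWithinAt)
    (fun z hz => (hd z hz).deriv)
  refine ⟨a, fun τ => ?_⟩
  have := ha τ τ.2
  simp only [Function.comp_apply, ofComplex_apply] at this
  rw [← this]; ring

/-- Uniqueness of the normalised primitive. -/
theorem hasEquivariantPrimitive_unique {N : ℕ} {f : CuspForm (Gamma0 N) 2} {F G : ℍ → ℂ}
    (hF : HasEquivariantPrimitive N f F) (hG : HasEquivariantPrimitive N f G) : F = G := by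
  obtain ⟨c, hc⟩ := exists_eq_add_of_hasDerivAt hF.1 hG.1
  have h1 : Tendsto (fun τ => F τ - G τ) atImInfty (𝓝 (0 - 0)) := hF.2.1.sub hG.2.1
  have h2 : Tendsto (fun τ => F τ - G τ) atImInfty (𝓝 c) := by
    have : (fun τ => F τ - G τ) = fun _ => c := by
      funext τ; rw [hc τ]; ring
    rw [this]; exact tendsto_const_nhds
  have hc0 : c = 0 := by
    have := tendsto_nhds_unique h2 h1
    simpa using this
  funext τ
  rw [hc τ, hc0, add_zero]

/-- The value of the period map computed from any normalised primitive. -/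
theorem periodMap_apply {N : ℕ} {f : CuspForm (Gamma0 N) 2} {F : ℍ → ℂ}
    (hF : HasEquivariantPrimitive N f F) (γ : Gamma0 N) (z : ℍ) :
    periodMap N f (Additive.ofMul γ) = F ((γ : SL(2, ℤ)) • z) - F z := by
  obtain ⟨F₀, h₀, h⟩ := periodMap_def N f hF
  have hFF : F₀ = F := hasEquivariantPrimitive_unique h₀ hF
  subst hFF
  rw [h, IsEquivariantPrimitive.periodHom_apply, ← h₀.2.2.1.sub_eq_period γ z]

theorem periodMap_eq_periodHom {N : ℕ} {f : CuspForm (Gamma0 N) 2} {F : ℍ → ℂ}
    (hF : HasEquivariantPrimitive N f F) : periodMap N f = hF.2.2.1.periodHom := by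
  refine AddMonoidHom.ext fun γ => ?_
  rw [← ofMul_toMul γ, periodMap_apply hF _ UpperHalfPlane.I, IsEquivariantPrimitive.periodHom_apply]
  rfl

theorem hasEquivariantPrimitive_zero (N : ℕ) :
    HasEquivariantPrimitive N (0 : CuspForm (Gamma0 N) 2) (fun _ => 0) := by
  refine ⟨fun τ => ?_, tendsto_const_nhds, fun γ => ⟨0, fun z => by simp⟩,
    fun δ => ⟨0, tendsto_const_nhds⟩⟩
  have : ((fun _ => (0 : ℂ)) : ℍ → ℂ) ∘ ofComplex = fun _ => (0 : ℂ) := rfl
  rw [this]
  simpa using hasDerivAt_const (τ : ℂ) (0 : ℂ)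

theorem hasEquivariantPrimitive_add {N : ℕ} {f g : CuspForm (Gamma0 N) 2} {F G : ℍ → ℂ}
    (hF : HasEquivariantPrimitive N f F) (hG : HasEquivariantPrimitive N g G) :
    HasEquivariantPrimitive N (f + g) (fun z => F z + G z) := by
  refine ⟨fun τ => ?_, ?_, fun γ => ?_, fun δ => ?_⟩
  · have := (hF.1 τ).add (hG.1 τ)
    exact this
  · simpa using hF.2.1.add hG.2.1
  · obtain ⟨c, hc⟩ := hF.2.2.1 γ
    obtain ⟨d, hd⟩ := hG.2.2.1 γ
    exact ⟨c + d, fun z => by rw [← hc z, ← hd z]; ring⟩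
  · obtain ⟨L, hL⟩ := hF.2.2.2 δ
    obtain ⟨L', hL'⟩ := hG.2.2.2 δ
    exact ⟨L + L', hL.add hL'⟩

theorem hasEquivariantPrimitive_smul {N : ℕ} {f : CuspForm (Gamma0 N) 2} {F : ℍ → ℂ}
    (hF : HasEquivariantPrimitive N f F) (a : ℂ) :
    HasEquivariantPrimitive N (a • f) (fun z => a * F z) := by
  refine ⟨fun τ => ?_, ?_, fun γ => ?_, fun δ => ?_⟩
  · have := (hF.1 τ).const_mul a
    exact this
  · simpa using hF.2.1.const_mul a
  · obtain ⟨c, hc⟩ := hF.2.2.1 γ
    exact ⟨a * c, fun z => by rw [← hc z]; ring⟩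
  · obtain ⟨L, hL⟩ := hF.2.2.2 δ
    exact ⟨a * L, hL.const_mul a⟩

/-- (C) linearity of the period map, given existence of primitives. -/
theorem existsPeriodMapLinear_of_exists (N : ℕ)
    (hex : ∀ f : CuspForm (Gamma0 N) 2, ∃ F : ℍ → ℂ, HasEquivariantPrimitive N f F) :
    ExistsPeriodMapLinear N := by
  refine ⟨{ toFun := periodMap N, map_add' := fun f g => ?_, map_smul' := fun a f => ?_ },
    fun f => rfl⟩
  · obtain ⟨F, hF⟩ := hex f
    obtain ⟨G, hG⟩ := hex g
    refine AddMonoidHom.ext fun γ => ?_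
    rw [← ofMul_toMul γ, AddMonoidHom.add_apply, periodMap_apply (hasEquivariantPrimitive_add hF hG) _ UpperHalfPlane.I,
      periodMap_apply hF _ UpperHalfPlane.I, periodMap_apply hG _ UpperHalfPlane.I]
    ring
  · obtain ⟨F, hF⟩ := hex f
    refine AddMonoidHom.ext fun γ => ?_
    rw [← ofMul_toMul γ, RingHom.id_apply, AddMonoidHom.smul_apply,
      periodMap_apply (hasEquivariantPrimitive_smul hF a) _ UpperHalfPlane.I, periodMap_apply hF _ UpperHalfPlane.I,
      smul_eq_mul]
    ring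

end Fermat.Agent.S21.Glue
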