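/-
S21 glue: injectivity + range inside parabolic homs + dimension count give the statement.
-/
import Fermat.Agent.S21.Basic
import Fermat.Prelude.Def_ModularCurve_GenusNumerics
import Mathlib

set_option autoImplicit false

namespace Fermat.Agent.S21.Glue

open ModularCurve ModularCurve.Period CongruenceSubgroup UpperHalfPlane Module
open scoped MatrixGroups ComplexConjugate

/-- Formula for `periodHomPair` once linearity of the period map is known. -/
theorem periodHomPair_apply (N : ℕ) (hlin : ExistsPeriodMapLinear N)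
    (f g : CuspForm (Gamma0 N) 2) :
    periodHomPair N (f, g)
      = (periodMap N f + charInvolution N ℂ ℂ (periodMap N f))
        + (periodMap N g - charInvolution N ℂ ℂ (periodMap N g)) := by
  obtain ⟨pml, hpml, h⟩ := periodHomPair_def N hlin
  rw [h]
  simp [LinearMap.coprod_apply, hpml]

/-- (D') the range of `periodHomPair` consists of parabolic homs as soon as each `periodMap N f`
is parabolic. -/
theorem range_periodHomPair_le_of (N : ℕ)
    (hpar : ∀ f : CuspForm (Gamma0 N) 2, periodMap N f ∈ parabolicHoms ℂ (Gamma0 N) ℂ) :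
    LinearMap.range (periodHomPair N) ≤ parabolicHoms ℂ (Gamma0 N) ℂ := by
  by_cases hlin : ExistsPeriodMapLinear N
  · rintro _ ⟨⟨f, g⟩, rfl⟩
    rw [periodHomPair_apply N hlin]
    exact Submodule.add_mem _
      (Submodule.add_mem _ (hpar f) (charInvolution_mem_parabolicHoms N ℂ ℂ (hpar f)))
      (Submodule.sub_mem _ (hpar g) (charInvolution_mem_parabolicHoms N ℂ ℂ (hpar g)))
  · rintro _ ⟨v, rfl⟩
    unfold periodHomPair
    rw [dif_neg hlin]
    exact Submodule.zero_mem _

/-- (E') injectivity of `periodHomPair` from: linearity, a "complex conjugate form" operation `c`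
computing the involution, and the key analytic statement. -/
theorem periodHomPair_injective_of (N : ℕ) (hlin : ExistsPeriodMapLinear N)
    (c : CuspForm (Gamma0 N) 2 → CuspForm (Gamma0 N) 2)
    (hc0 : ∀ f, c f = 0 → f = 0)
    (hc : ∀ (f : CuspForm (Gamma0 N) 2) (γ : Gamma0 N),
      periodMap N f (Additive.ofMul (jConjGamma0 N γ))
        = - conj (periodMap N (c f) (Additive.ofMul γ)))
    (hkey : ∀ u v : CuspForm (Gamma0 N) 2,
      (∀ γ : Gamma0 N, periodMap N u (Additive.ofMul γ) = conj (periodMap N v (Additive.ofMul γ)))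
        → u = 0 ∧ v = 0) :
    Function.Injective (periodHomPair N) := by
  obtain ⟨pml, hpml⟩ := hlin
  have hlin : ExistsPeriodMapLinear N := ⟨pml, hpml⟩
  rw [← LinearMap.ker_eq_bot, LinearMap.ker_eq_bot']
  rintro ⟨f, g⟩ h
  rw [periodHomPair_apply N hlin] at h
  -- rewrite in terms of `f + g` and `f - g`
  have hadd : periodMap N (f + g) = periodMap N f + periodMap N g := by
    rw [← hpml, ← hpml, ← hpml, map_add]
  have hsub : periodMap N (f - g) = periodMap N f - periodMap N g := by
    rw [← hpml, ← hpml, ← hpml, map_sub]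
  have h1 : periodMap N (f + g) + charInvolution N ℂ ℂ (periodMap N (f - g)) = 0 := by
    rw [hadd, hsub, map_sub, ← h]; abel
  have h2 : ∀ γ : Gamma0 N, periodMap N (f + g) (Additive.ofMul γ)
      = conj (periodMap N (c (f - g)) (Additive.ofMul γ)) := by
    intro γ
    have := DFunLike.congr_fun h1 (Additive.ofMul γ)
    rw [AddMonoidHom.add_apply, charInvolution_apply, toMul_ofMul, hc, AddMonoidHom.zero_apply]
      at this
    linear_combination this
  obtain ⟨h3, h4⟩ := hkey _ _ h2
  have h5 := hc0 _ h4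
  have hf : f = 0 := by
    have : (2 : ℂ) • f = 0 := by
      have : (f + g) + (f - g) = 0 := by rw [h3, h5, add_zero]
      rw [two_smul]; rw [← this]; abel
    exact (smul_eq_zero.mp this).resolve_left two_ne_zero
  have hg : g = 0 := by rw [hf, zero_add] at h3; exact h3
  rw [hf, hg]; rfl

/-- (F) assembly. -/
theorem s21_of (N : ℕ) [NeZero N]
    (hinj : Function.Injective (periodHomPair N))
    (hrange : LinearMap.range (periodHomPair N) ≤ parabolicHoms ℂ (Gamma0 N) ℂ)
    (h20 : (finrank ℂ (CuspForm (Gamma0 N) 2) : ℚ) = genusFormula N)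
    (hfin : Module.Finite ℂ (parabolicHoms ℂ (Gamma0 N) ℂ))
    (hpar : (finrank ℂ (parabolicHoms ℂ (Gamma0 N) ℂ) : ℚ) ≤ 2 * genusFormula N) :
    Function.Injective (periodHomPair N)
      ∧ LinearMap.range (periodHomPair N) = parabolicHoms ℂ (Gamma0 N) ℂ := by
  refine ⟨hinj, ?_⟩
  have hle : finrank ℂ (parabolicHoms ℂ (Gamma0 N) ℂ) ≤ 2 * finrank ℂ (CuspForm (Gamma0 N) 2) := by
    have : (finrank ℂ (parabolicHoms ℂ (Gamma0 N) ℂ) : ℚ)
        ≤ ((2 * finrank ℂ (CuspForm (Gamma0 N) 2) : ℕ) : ℚ) := by
      push_cast; rw [h20]; exact hpar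
    exact_mod_cast this
  -- finite-dimensionality of the source: the injective map lands in a finite-dimensional space
  let φ : (CuspForm (Gamma0 N) 2 × CuspForm (Gamma0 N) 2) →ₗ[ℂ] parabolicHoms ℂ (Gamma0 N) ℂ :=
    LinearMap.codRestrict _ (periodHomPair N) (fun v => hrange (LinearMap.mem_range_self _ v))
  have hφinj : Function.Injective φ := fun a b hab => hinj (by
    have := congrArg Subtype.val hab
    simpa [φ] using this)
  have : Module.Finite ℂ (CuspForm (Gamma0 N) 2 × CuspForm (Gamma0 N) 2) :=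
    Module.Finite.of_injective φ hφinj
  have hsrc : finrank ℂ (CuspForm (Gamma0 N) 2 × CuspForm (Gamma0 N) 2)
      = 2 * finrank ℂ (CuspForm (Gamma0 N) 2) := by
    have : Module.Finite ℂ (CuspForm (Gamma0 N) 2) :=
      Module.Finite.of_injective (LinearMap.inl ℂ _ (CuspForm (Gamma0 N) 2)) LinearMap.inl_injective
    rw [Module.finrank_prod]; ring
  have hrk : finrank ℂ (LinearMap.range (periodHomPair N))
      = finrank ℂ (CuspForm (Gamma0 N) 2 × CuspForm (Gamma0 N) 2) :=
    LinearMap.finrank_range_of_inj hinj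
  refine Submodule.eq_of_le_of_finrank_le hrange ?_
  rw [hrk, hsrc]; exact hle

/-- The complete reduction of S21 to its five inputs:
(A) existence of primitives, (D) parabolic vanishing, (E-i) conjugate forms, (E-ii) the key
analytic injectivity statement, (P)+(S20) the dimension count. -/
theorem s21_of_inputs (N : ℕ) [NeZero N]
    (hex : ∀ f : CuspForm (Gamma0 N) 2, ∃ F : ℍ → ℂ, HasEquivariantPrimitive N f F)
    (hpar : ∀ f : CuspForm (Gamma0 N) 2, periodMap N f ∈ parabolicHoms ℂ (Gamma0 N) ℂ)
    (c : CuspForm (Gamma0 N) 2 → CuspForm (Gamma0 N) 2)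
    (hc0 : ∀ f, c f = 0 → f = 0)
    (hc : ∀ (f : CuspForm (Gamma0 N) 2) (γ : Gamma0 N),
      periodMap N f (Additive.ofMul (jConjGamma0 N γ))
        = - conj (periodMap N (c f) (Additive.ofMul γ)))
    (hkey : ∀ u v : CuspForm (Gamma0 N) 2,
      (∀ γ : Gamma0 N, periodMap N u (Additive.ofMul γ) = conj (periodMap N v (Additive.ofMul γ)))
        → u = 0 ∧ v = 0)
    (h20 : (finrank ℂ (CuspForm (Gamma0 N) 2) : ℚ) = genusFormula N)
    (hfin : Module.Finite ℂ (parabolicHoms ℂ (Gamma0 N) ℂ))
    (hdim : (finrank ℂ (parabolicHoms ℂ (Gamma0 N) ℂ) : ℚ) ≤ 2 * genusFormula N) :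
    Function.Injective (periodHomPair N)
      ∧ LinearMap.range (periodHomPair N) = parabolicHoms ℂ (Gamma0 N) ℂ :=
  s21_of N
    (periodHomPair_injective_of N (existsPeriodMapLinear_of_exists N hex) c hc0 hc hkey)
    (range_periodHomPair_le_of N hpar) h20 hfin hdim

end Fermat.Agent.S21.Glue
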