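import Fermat.Agent.S21.Glue
import Fermat.Agent.S21.PeriodMap
import Fermat.Agent.S21.ParabolicVanish
import Fermat.Agent.S21.ParabolicDimFinal
import Fermat.Agent.S21.Injective

/-!
# Unconditional consequences of the Eichler–Shimura injectivity for `S₂(Γ₀(N))`:
finite-dimensionality and the upper bound `dim S₂(Γ₀(N)) ≤ genusFormula N`.
-/

set_option autoImplicit false

open ModularCurve ModularCurve.Period CongruenceSubgroup Module

namespace Fermat.Agent.S21

/-- The Eichler–Shimura map is injective (unconditionally). -/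
theorem injective_periodHomPair (N : ℕ) [NeZero N] : Function.Injective (periodHomPair N) :=
  injective_periodHomPair_of N (exists_hasEquivariantPrimitive N) (existsPeriodMapLinear N)

/-- The range of the Eichler–Shimura map consists of parabolic classes (unconditionally). -/
theorem range_periodHomPair_le (N : ℕ) [NeZero N] :
    LinearMap.range (periodHomPair N) ≤ parabolicHoms ℂ (Gamma0 N) ℂ :=
  Glue.range_periodHomPair_le_of N (periodMap_mem_parabolicHoms N)

/-- The Eichler–Shimura map, corestricted to the parabolic classes. -/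
noncomputable def periodHomPairPar (N : ℕ) [NeZero N] :
    (CuspForm (Gamma0 N) 2 × CuspForm (Gamma0 N) 2) →ₗ[ℂ] parabolicHoms ℂ (Gamma0 N) ℂ :=
  LinearMap.codRestrict _ (periodHomPair N)
    (fun v => range_periodHomPair_le N (LinearMap.mem_range_self _ v))

theorem injective_periodHomPairPar (N : ℕ) [NeZero N] :
    Function.Injective (periodHomPairPar N) := fun a b hab =>
  injective_periodHomPair N (by
    have := congrArg Subtype.val hab
    simpa [periodHomPairPar] using this)

/-- `S₂(Γ₀(N))` is finite-dimensional. -/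
theorem finite_cuspForm_Gamma0_two (N : ℕ) [NeZero N] :
    Module.Finite ℂ (CuspForm (Gamma0 N) 2) := by
  have := ParabolicDim.finite_parabolicHoms_Gamma0 N
  have h2 : Module.Finite ℂ (CuspForm (Gamma0 N) 2 × CuspForm (Gamma0 N) 2) :=
    Module.Finite.of_injective (periodHomPairPar N) (injective_periodHomPairPar N)
  exact Module.Finite.of_injective (LinearMap.inl ℂ _ (CuspForm (Gamma0 N) 2))
    LinearMap.inl_injective

/-- `dim S₂(Γ₀(N)) ≤ genusFormula N`. -/
theorem finrank_cuspForm_Gamma0_two_le (N : ℕ) [NeZero N] :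
    (finrank ℂ (CuspForm (Gamma0 N) 2) : ℚ) ≤ genusFormula N := by
  have hfin := ParabolicDim.finite_parabolicHoms_Gamma0 N
  have hS := finite_cuspForm_Gamma0_two N
  have h1 : finrank ℂ (CuspForm (Gamma0 N) 2 × CuspForm (Gamma0 N) 2)
      ≤ finrank ℂ (parabolicHoms ℂ (Gamma0 N) ℂ) :=
    LinearMap.finrank_le_finrank_of_injective (injective_periodHomPairPar N)
  rw [Module.finrank_prod] at h1
  have h2 := ParabolicDim.finrank_parabolicHoms_Gamma0_le' N
  have h3 : ((finrank ℂ (CuspForm (Gamma0 N) 2) + finrank ℂ (CuspForm (Gamma0 N) 2) : ℕ) : ℚ)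
      ≤ (finrank ℂ (parabolicHoms ℂ (Gamma0 N) ℂ) : ℚ) := by exact_mod_cast h1
  push_cast at h3
  linarith

end Fermat.Agent.S21
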