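import Mathlib
import Fermat.Prelude.Def_ModularCurve_PeriodMap

set_option autoImplicit false

open scoped MatrixGroups
open ModularGroup

namespace Fermat.Agent.S21.CocycleLib

section Cocycle

variable {G : Type*} [Group G] (Γ : Subgroup G)

/-- The `Γ`-valued cocycle attached to the section `Quotient.out` of `G → G ⧸ Γ`. -/
noncomputable def delta (g : G) (y : G ⧸ Γ) : Γ :=
  ⟨(g • y).out⁻¹ * g * y.out, by
    rw [mul_assoc, ← QuotientGroup.eq, QuotientGroup.out_eq', ← smul_eq_mul,
      ← MulAction.Quotient.smul_mk, QuotientGroup.out_eq']⟩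

theorem delta_coe (g : G) (y : G ⧸ Γ) :
    (delta Γ g y : G) = (g • y).out⁻¹ * g * y.out := rfl

theorem delta_mul (g h : G) (y : G ⧸ Γ) :
    delta Γ (g * h) y = delta Γ g (h • y) * delta Γ h y := by
  apply Subtype.ext
  rw [Subgroup.coe_mul, delta_coe, delta_coe, delta_coe, mul_smul]
  group

variable {Γ}

/-- The induced cocycle `G → (G ⧸ Γ → A)` of a homomorphism `φ : Γ → A`. -/
noncomputable def ind {A : Type*} [AddCommGroup A] (φ : Additive Γ →+ A) (g : G) (y : G ⧸ Γ) : A :=
  φ (Additive.ofMul (delta Γ g y))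

theorem ind_mul {A : Type*} [AddCommGroup A] (φ : Additive Γ →+ A) (g h : G) (y : G ⧸ Γ) :
    ind φ (g * h) y = ind φ g (h • y) + ind φ h y := by
  unfold ind
  rw [delta_mul, ofMul_mul, map_add]

end Cocycle

section AbstractCocycle

variable {G : Type*} [Group G] {X : Type*} [MulAction G X] {A : Type*} [AddCommGroup A]

/-- Right cocycles `G → (X → A)`. -/
def IsCoc (Z : G → X → A) : Prop :=
  ∀ g h y, Z (g * h) y = Z g (h • y) + Z h y

theorem IsCoc.one {Z : G → X → A} (hZ : IsCoc Z) (y : X) : Z 1 y = 0 := by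
  have h := hZ 1 1 y
  rw [one_mul, one_smul] at h
  exact left_eq_add.mp h

theorem IsCoc.inv {Z : G → X → A} (hZ : IsCoc Z) (g : G) (y : X) :
    Z g⁻¹ y = - Z g (g⁻¹ • y) := by
  have h := hZ g g⁻¹ y
  rw [mul_inv_cancel, hZ.one] at h
  exact eq_neg_of_add_eq_zero_right h.symm

theorem IsCoc.pow {Z : G → X → A} (hZ : IsCoc Z) (g : G) (k : ℕ) (y : X) :
    Z (g ^ k) y = ∑ i ∈ Finset.range k, Z g (g ^ i • y) := by
  induction k with
  | zero => rw [pow_zero, hZ.one, Finset.range_zero, Finset.sum_empty]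
  | succ k ih => rw [pow_succ', hZ, ih, Finset.sum_range_succ, add_comm]

theorem IsCoc.eq_zero_of_closure {Z : G → X → A} (hZ : IsCoc Z) {s : Set G}
    (hs : Subgroup.closure s = ⊤) (h0 : ∀ g ∈ s, ∀ y, Z g y = 0) (g : G) (y : X) : Z g y = 0 := by
  have hg : g ∈ Subgroup.closure s := hs ▸ Subgroup.mem_top g
  revert y
  induction hg using Subgroup.closure_induction with
  | mem x hx => exact h0 x hx
  | one => exact hZ.one
  | mul a b _ _ ha hb => intro y; rw [hZ, ha, hb, add_zero]
  | inv a _ ha => intro y; rw [hZ.inv, ha, neg_zero]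

theorem IsCoc.add {Z Z' : G → X → A} (hZ : IsCoc Z) (hZ' : IsCoc Z') :
    IsCoc (fun g y => Z g y + Z' g y) := by
  intro g h y
  show Z (g * h) y + Z' (g * h) y = Z g (h • y) + Z' g (h • y) + (Z h y + Z' h y)
  rw [hZ, hZ']; abel

/-- The coboundary of `m : X → A`. -/
def bd (m : X → A) (g : G) (y : X) : A := m (g • y) - m y

theorem isCoc_bd (m : X → A) : IsCoc (bd (G := G) m) := by
  intro g h y
  unfold bd
  rw [mul_smul]; abel

end AbstractCocycle

section Induced

variable {G : Type*} [Group G] {Γ : Subgroup G} {A : Type*} [AddCommGroup A]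

theorem isCoc_ind (φ : Additive Γ →+ A) : IsCoc (ind φ) := fun g h y => ind_mul φ g h y

theorem smul_base (γ : Γ) : (γ : G) • ((1 : G) : G ⧸ Γ) = ((1 : G) : G ⧸ Γ) := by
  rw [MulAction.Quotient.smul_mk, smul_eq_mul, mul_one, QuotientGroup.eq]
  simp

theorem ind_base (φ : Additive Γ →+ A) (γ : Γ) :
    ind φ (γ : G) ((1 : G) : G ⧸ Γ) = φ (Additive.ofMul γ) := by
  have ha : (((1 : G) : G ⧸ Γ)).out ∈ Γ := by
    have h := QuotientGroup.out_eq' ((1 : G) : G ⧸ Γ)
    rw [QuotientGroup.eq] at h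
    simpa using Γ.inv_mem h
  have hd : delta Γ (γ : G) ((1 : G) : G ⧸ Γ)
      = (⟨_, ha⟩ : Γ)⁻¹ * γ * ⟨_, ha⟩ := by
    apply Subtype.ext
    rw [delta_coe, smul_base]
    rfl
  unfold ind
  rw [hd, ofMul_mul, ofMul_mul, ofMul_inv, map_add, map_add, map_neg]
  abel

theorem eq_zero_of_ind_add_bd_eq_zero (φ : Additive Γ →+ A) (m : G ⧸ Γ → A)
    (h : ∀ g y, ind φ g y + bd m g y = 0) :
    φ = 0 ∧ ∀ y, m y = m ((1 : G) : G ⧸ Γ) := by
  have hφ : φ = 0 := by
    refine AddMonoidHom.ext fun γ => ?_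
    have h1 := h ((Additive.toMul γ : Γ) : G) ((1 : G) : G ⧸ Γ)
    rw [ind_base, bd, smul_base, sub_self, add_zero] at h1
    exact h1
  refine ⟨hφ, fun y => ?_⟩
  obtain ⟨g, rfl⟩ := QuotientGroup.mk_surjective y
  have h1 := h g ((1 : G) : G ⧸ Γ)
  have h2 : ind φ g ((1 : G) : G ⧸ Γ) = 0 := by rw [hφ]; rfl
  rw [h2, zero_add, bd, MulAction.Quotient.smul_mk, smul_eq_mul, mul_one, sub_eq_zero] at h1
  exact h1

end Induced

section PermModule

variable {G : Type*} [Group G] {X : Type*} [MulAction G X]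

/-- Translation operator on functions: `(R g f) y = f (g • y)`. -/
def R (g : G) : (X → ℂ) →ₗ[ℂ] (X → ℂ) := LinearMap.funLeft ℂ ℂ (fun y => g • y)

@[simp] theorem R_apply (g : G) (f : X → ℂ) (y : X) : R g f y = f (g • y) := rfl

/-- Norm-type operator `∑ i < k, R (g ^ i)`. -/
def Nm (g : G) (k : ℕ) : (X → ℂ) →ₗ[ℂ] (X → ℂ) := ∑ i ∈ Finset.range k, R (g ^ i)

theorem Nm_apply (g : G) (k : ℕ) (f : X → ℂ) (y : X) :
    Nm g k f y = ∑ i ∈ Finset.range k, f (g ^ i • y) := by
  unfold Nm
  rw [LinearMap.sum_apply, Finset.sum_apply]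
  rfl

/-- `Nm g k` kills `R g f - f` when `g ^ k` acts trivially. -/
theorem Nm_R_sub (g : G) (k : ℕ) (hk : ∀ y : X, g ^ k • y = y) (f : X → ℂ) :
    Nm g k (R g f - f) = 0 := by
  funext y
  rw [Nm_apply]
  calc ∑ i ∈ Finset.range k, (R g f - f) (g ^ i • y)
      = ∑ i ∈ Finset.range k,
          ((fun i => f (g ^ i • y)) (i + 1) - (fun i => f (g ^ i • y)) i) := by
        refine Finset.sum_congr rfl fun i _ => ?_
        show f (g • g ^ i • y) - f (g ^ i • y) = f (g ^ (i + 1) • y) - f (g ^ i • y)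
        rw [pow_succ', mul_smul]
    _ = (fun i => f (g ^ i • y)) k - (fun i => f (g ^ i • y)) 0 :=
        Finset.sum_range_sub (fun i => f (g ^ i • y)) k
    _ = 0 := by
        show f (g ^ k • y) - f (g ^ 0 • y) = 0
        rw [pow_zero, one_smul, hk, sub_self]

theorem Nm_R (g : G) (k : ℕ) (hk : ∀ y : X, g ^ k • y = y) (f : X → ℂ) :
    Nm g k (R g f) = Nm g k f := by
  have h := Nm_R_sub g k hk f
  rw [map_sub, sub_eq_zero] at h
  exact h

/-- The submodule of `g`-invariant functions. -/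
def inv (g : G) : Submodule ℂ (X → ℂ) := LinearMap.ker (R g - LinearMap.id)

theorem mem_inv {g : G} {f : X → ℂ} : f ∈ inv g ↔ ∀ y, f (g • y) = f y := by
  unfold inv
  rw [LinearMap.mem_ker, LinearMap.sub_apply, LinearMap.id_apply, sub_eq_zero]
  constructor
  · intro h y
    have := congrFun h y
    simpa using this
  · intro h
    funext y
    simpa using h y

theorem Nm_of_mem_inv {g : G} {f : X → ℂ} (hf : f ∈ inv g) (k : ℕ) :
    Nm g k f = (k : ℂ) • f := by
  have hpow : ∀ (i : ℕ) (y : X), f (g ^ i • y) = f y := by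
    intro i
    induction i with
    | zero => intro y; rw [pow_zero, one_smul]
    | succ i ih => intro y; rw [pow_succ, mul_smul, ih, mem_inv.mp hf]
  funext y
  rw [Nm_apply, Finset.sum_congr rfl (fun i _ => hpow i y), Finset.sum_const, Finset.card_range,
    Pi.smul_apply, smul_eq_mul, nsmul_eq_mul]

theorem disjoint_ker_Nm_inv (g : G) {k : ℕ} (hk : k ≠ 0) :
    Disjoint (LinearMap.ker (Nm (X := X) g k)) (inv g) := by
  rw [Submodule.disjoint_def]
  intro f hf1 hf2
  rw [LinearMap.mem_ker, Nm_of_mem_inv hf2] at hf1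
  exact (smul_eq_zero.mp hf1).resolve_left (Nat.cast_ne_zero.mpr hk)

theorem inv_le_range_Nm (g : G) {k : ℕ} (hk : k ≠ 0) :
    inv g ≤ LinearMap.range (Nm (X := X) g k) := by
  intro f hf
  refine ⟨((k : ℂ)⁻¹) • f, ?_⟩
  rw [map_smul, Nm_of_mem_inv hf, smul_smul, inv_mul_cancel₀ (Nat.cast_ne_zero.mpr hk), one_smul]

theorem R_mul (a b : G) (f : X → ℂ) : R (a * b) f = R b (R a f) := by
  funext y
  simp [mul_smul]

theorem R_one (f : X → ℂ) : R (1 : G) f = f := by
  funext y
  simp

open Classical in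
theorem R_single (g : G) (x : X) :
    R g (Pi.single (g • x) (1 : ℂ)) = Pi.single x (1 : ℂ) := by
  funext y
  rw [R_apply, Pi.single_apply, Pi.single_apply]
  simp only [smul_left_cancel_iff]

variable [Finite X]

/-- The number of `⟨g⟩`-orbits is at most the dimension of the invariants. -/
theorem card_orbits_le_finrank_inv (g : G) :
    Nat.card (MulAction.orbitRel.Quotient (Subgroup.zpowers g) X) ≤ Module.finrank ℂ (inv (X := X) g) := by
  classical
  let _ := Fintype.ofFinite X
  let _ : Fintype (MulAction.orbitRel.Quotient (Subgroup.zpowers g) X) := Fintype.ofFinite _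
  let π : X → MulAction.orbitRel.Quotient (Subgroup.zpowers g) X :=
    Quotient.mk (MulAction.orbitRel (Subgroup.zpowers g) X)
  have hπ : Function.Surjective π := Quotient.mk_surjective
  let L : (MulAction.orbitRel.Quotient (Subgroup.zpowers g) X → ℂ) →ₗ[ℂ] (X → ℂ) :=
    LinearMap.funLeft ℂ ℂ π
  have hL : Function.Injective L := LinearMap.funLeft_injective_of_surjective ℂ ℂ π hπ
  have hrange : LinearMap.range L ≤ inv g := by
    rintro _ ⟨h, rfl⟩
    rw [mem_inv]
    intro y
    show h (π (g • y)) = h (π y)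
    congr 1
    apply Quotient.sound
    show (MulAction.orbitRel (Subgroup.zpowers g) X) (g • y) y
    rw [MulAction.orbitRel_apply]
    exact ⟨⟨g, Subgroup.mem_zpowers g⟩, rfl⟩
  calc Nat.card (MulAction.orbitRel.Quotient (Subgroup.zpowers g) X)
      = Module.finrank ℂ (MulAction.orbitRel.Quotient (Subgroup.zpowers g) X → ℂ) := by
        rw [Module.finrank_fintype_fun_eq_card, Nat.card_eq_fintype_card]
    _ = Module.finrank ℂ (LinearMap.range L) := (LinearMap.finrank_range_of_inj hL).symm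
    _ ≤ Module.finrank ℂ (inv (X := X) g) := Submodule.finrank_mono hrange

theorem finrank_ker_Nm_add_card_orbits_le (g : G) {k : ℕ} (hk : k ≠ 0) :
    Module.finrank ℂ (LinearMap.ker (Nm (X := X) g k))
      + Nat.card (MulAction.orbitRel.Quotient (Subgroup.zpowers g) X) ≤ Nat.card X := by
  classical
  let _ := Fintype.ofFinite X
  calc Module.finrank ℂ (LinearMap.ker (Nm (X := X) g k))
        + Nat.card (MulAction.orbitRel.Quotient (Subgroup.zpowers g) X)
      ≤ Module.finrank ℂ (LinearMap.ker (Nm (X := X) g k)) + Module.finrank ℂ (inv (X := X) g) :=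
        Nat.add_le_add_left (card_orbits_le_finrank_inv g) _
    _ ≤ Module.finrank ℂ (X → ℂ) :=
        Submodule.finrank_add_finrank_le_of_disjoint (disjoint_ker_Nm_inv g hk)
    _ = Nat.card X := by rw [Module.finrank_fintype_fun_eq_card, Nat.card_eq_fintype_card]

theorem card_orbits_le_finrank_range_Nm (g : G) {k : ℕ} (hk : k ≠ 0) :
    Nat.card (MulAction.orbitRel.Quotient (Subgroup.zpowers g) X)
      ≤ Module.finrank ℂ (LinearMap.range (Nm (X := X) g k)) :=
  (card_orbits_le_finrank_inv g).trans (Submodule.finrank_mono (inv_le_range_Nm g hk))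

omit [Finite X] in
/-- If `R g f - f ∈ D` for all `g` in a generating set, then for all `g`. -/
theorem R_sub_mem_of_closure (D : Submodule ℂ (X → ℂ)) {s : Set G}
    (hs : Subgroup.closure s = ⊤) (hD : ∀ g ∈ s, ∀ f : X → ℂ, R g f - f ∈ D) (g : G)
    (f : X → ℂ) : R g f - f ∈ D := by
  have hg : g ∈ Subgroup.closure s := hs ▸ Subgroup.mem_top g
  revert f
  induction hg using Subgroup.closure_induction with
  | mem x hx => exact hD x hx
  | one => intro f; rw [R_one, sub_self]; exact D.zero_mem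
  | mul a b _ _ ha hb =>
    intro f
    have : R (a * b) f - f = (R b (R a f) - R a f) + (R a f - f) := by rw [R_mul]; abel
    rw [this]
    exact D.add_mem (hb _) (ha _)
  | inv a _ ha =>
    intro f
    have h1 : R a (R a⁻¹ f) = f := by rw [← R_mul, inv_mul_cancel, R_one]
    have : R a⁻¹ f - f = -(R a (R a⁻¹ f) - R a⁻¹ f) := by rw [h1]; abel
    rw [this]
    exact D.neg_mem (ha _)

open Classical in
/-- In a transitive situation, every function is a multiple of a delta function modulo `D`. -/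
theorem exists_sub_smul_single_mem [MulAction.IsPretransitive G X]
    (D : Submodule ℂ (X → ℂ)) (hD : ∀ (g : G) (f : X → ℂ), R g f - f ∈ D) (x₀ : X)
    (f : X → ℂ) : ∃ c : ℂ, f - c • Pi.single x₀ (1 : ℂ) ∈ D := by
  let _ := Fintype.ofFinite X
  have hδ : ∀ x : X, Pi.single x (1 : ℂ) - Pi.single x₀ (1 : ℂ) ∈ D := by
    intro x
    obtain ⟨g, rfl⟩ := MulAction.exists_smul_eq G x₀ x
    have := hD g (Pi.single (g • x₀) (1 : ℂ))
    rw [R_single] at this
    have h2 := D.neg_mem this
    rwa [neg_sub] at h2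
  refine ⟨∑ x, f x, ?_⟩
  have hf : f = ∑ x, f x • Pi.single x (1 : ℂ) := by
    conv_lhs => rw [← Finset.univ_sum_single f]
    refine Finset.sum_congr rfl fun x _ => ?_
    funext y
    simp [Pi.single_apply]
  have : f - (∑ x, f x) • Pi.single x₀ (1 : ℂ)
      = ∑ x, f x • (Pi.single x (1 : ℂ) - Pi.single x₀ (1 : ℂ)) := by
    simp only [smul_sub, Finset.sum_sub_distrib, ← Finset.sum_smul]
    rw [← hf]
  rw [this]
  exact D.sum_mem fun x _ => D.smul_mem _ (hδ x)

end PermModule

end Fermat.Agent.S21.CocycleLib
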