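import Mathlib
import Fermat.Prelude.Def_ModularCurve_PeriodMap
import Fermat.Prelude.Def_ModularCurve_GenusNumerics
import Fermat.Agent.S21.ParabolicDim
import Fermat.Agent.S24.CombOrbits

/-!
`dim_ℂ Hom_par(Γ₀(N), ℂ) ≤ 2 * genusFormula N`, from the constraint count of `ParabolicDim.lean`
and the orbit counts of `S24/CombOrbits.lean`.  The number of `T`-orbits on `SL₂(ℤ) ⧸ Γ₀(N)`
(the number of cusps) is taken as a hypothesis.
-/

set_option autoImplicit false

namespace Fermat.Agent.S21.ParabolicDim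

open scoped MatrixGroups
open Module ModularGroup CongruenceSubgroup ModularCurve ModularCurve.Period

theorem finrank_parabolicHoms_Gamma0_le_two_mul_genusFormula (N : ℕ) [NeZero N]
    (hT : Nat.card (MulAction.orbitRel.Quotient (Subgroup.zpowers (T : SL(2, ℤ)))
        (SL(2, ℤ) ⧸ Gamma0 N)) = cuspCount N) :
    Module.Finite ℂ (parabolicHoms ℂ (Gamma0 N) ℂ) ∧
      (finrank ℂ (parabolicHoms ℂ (Gamma0 N) ℂ) : ℚ) ≤ 2 * genusFormula N := by
  obtain ⟨hfin, hle⟩ := finrank_parabolicHoms_Gamma0_add_le N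
  refine ⟨hfin, ?_⟩
  have h2 := Fermat.Agent.S24.Comb.two_mul_card_orbits_S N
  have h3 := Fermat.Agent.S24.Comb.three_mul_card_orbits_ST N
  have hn := Fermat.Agent.S24.Comb.card_quotient_Gamma0 N
  rw [hT, hn] at hle
  have hle' : (finrank ℂ (parabolicHoms ℂ (Gamma0 N) ℂ) : ℚ)
      + (Nat.card (MulAction.orbitRel.Quotient (Subgroup.zpowers (S : SL(2, ℤ)))
        (SL(2, ℤ) ⧸ Gamma0 N)) : ℚ) + (cuspCount N : ℚ)
      + (Nat.card (MulAction.orbitRel.Quotient (Subgroup.zpowers (S * T : SL(2, ℤ)))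
        (SL(2, ℤ) ⧸ Gamma0 N)) : ℚ) ≤ (dedekindPsi N : ℚ) + 2 := by
    exact_mod_cast hle
  have h2' : (2 : ℚ) * (Nat.card (MulAction.orbitRel.Quotient (Subgroup.zpowers (S : SL(2, ℤ)))
        (SL(2, ℤ) ⧸ Gamma0 N)) : ℚ) = (dedekindPsi N : ℚ) + (nuTwo N : ℚ) := by
    exact_mod_cast h2
  have h3' : (3 : ℚ) * (Nat.card (MulAction.orbitRel.Quotient
        (Subgroup.zpowers (S * T : SL(2, ℤ))) (SL(2, ℤ) ⧸ Gamma0 N)) : ℚ) =
      (dedekindPsi N : ℚ) + 2 * (nuThree N : ℚ) := by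
    exact_mod_cast h3
  unfold genusFormula
  linarith

end Fermat.Agent.S21.ParabolicDim
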