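import Mathlib.NumberTheory.ModularForms.QExpansion
import Mathlib.Analysis.Complex.HasPrimitives
import Mathlib.Analysis.Complex.RemovableSingularity

/-!
S21, analytic half: decaying primitives on the upper half plane.
-/

set_option autoImplicit false

open Complex Filter Function Topology
open UpperHalfPlane hiding I
open scoped Manifold Real

namespace Fermat.Agent.S21

/-- holomorphic on the upper half plane, `h`-periodic, tends to zero at `i∞` -/
structure IsDecaying (h : ℝ) (g : ℍ → ℂ) : Prop where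
  mdiff : MDiff g
  periodic : Function.Periodic (g ∘ ofComplex) (h : ℂ)
  zero : IsZeroAtImInfty g

/-- A function on the upper half plane whose derivative vanishes identically is constant. -/
theorem eq_of_hasDerivAt_zero {F : ℍ → ℂ}
    (hF : ∀ τ : ℍ, HasDerivAt (F ∘ ofComplex) 0 (τ : ℂ)) (z w : ℍ) : F z = F w := by
  have hopen : IsOpen {z : ℂ | 0 < z.im} := isOpen_upperHalfPlaneSet
  have hconv : Convex ℝ {z : ℂ | 0 < z.im} := convex_halfSpace_im_gt 0
  have hd : DifferentiableOn ℂ (F ∘ ofComplex) {z : ℂ | 0 < z.im} := fun x hx =>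
    (hF ⟨x, hx⟩).differentiableAt.differentiableWithinAt
  have hd' : Set.EqOn (deriv (F ∘ ofComplex)) 0 {z : ℂ | 0 < z.im} := fun x hx =>
    (hF ⟨x, hx⟩).deriv
  have := hopen.is_const_of_deriv_eq_zero hconv.isPreconnected hd hd' z.2 w.2
  simpa [Function.comp_apply, ofComplex_apply] using this

theorem hasDerivAt_qParam (h : ℝ) (z : ℂ) :
    HasDerivAt (Periodic.qParam h) (Periodic.qParam h z * (2 * π * I / h)) z := by
  unfold Periodic.qParam
  simpa only [id_eq, mul_one] using (((hasDerivAt_id z).const_mul (2 * π * I)).div_const (h : ℂ)).cexp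

theorem exists_primitive {h : ℝ} (hh : 0 < h) {g : ℍ → ℂ} (hg : IsDecaying h g) :
    ∃ G : ℍ → ℂ, IsDecaying h G ∧ ∀ τ : ℍ, HasDerivAt (G ∘ ofComplex) (g τ) (τ : ℂ) := by
  set φ := cuspFunction h g with hφdef
  have hφ : DifferentiableOn ℂ φ (Metric.ball 0 1) :=
    differentiableOn_cuspFunction_ball hh hg.periodic hg.mdiff hg.zero.isBoundedAtImInfty
  have hφ0 : φ 0 = 0 := hg.zero.cuspFunction_apply_zero hh
  have hψ : DifferentiableOn ℂ (dslope φ 0) (Metric.ball 0 1) :=
    (Complex.differentiableOn_dslope (Metric.ball_mem_nhds 0 one_pos)).mpr hφ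
  obtain ⟨Ψ, hΨ0, hΨ⟩ := hψ.isExactOn_ball.with_val_at 0 0
  have hc : (2 * π * I : ℂ) ≠ 0 := two_pi_I_ne_zero
  have hhc : (h : ℂ) ≠ 0 := by exact_mod_cast hh.ne'
  set c : ℂ := h / (2 * π * I) with hcdef
  -- the derivative computation on the complex plane
  have hderiv : ∀ z : ℂ, 0 < z.im →
      HasDerivAt (fun w => c * Ψ (Periodic.qParam h w)) (φ (Periodic.qParam h z)) z := by
    intro z hz
    have hq : Periodic.qParam h z ∈ Metric.ball (0 : ℂ) 1 := by
      simpa using Periodic.norm_qParam_lt_one hh hz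
    have h1 := (hΨ _ hq).comp z (hasDerivAt_qParam h z)
    have h2 := h1.const_mul c
    have h3 : (Periodic.qParam h z - 0) • dslope φ 0 (Periodic.qParam h z)
        = φ (Periodic.qParam h z) - φ 0 := sub_smul_dslope φ 0 _
    rw [hφ0, sub_zero, sub_zero, smul_eq_mul] at h3
    have h4 : c * (dslope φ 0 (Periodic.qParam h z) * (Periodic.qParam h z * (2 * π * I / h)))
        = φ (Periodic.qParam h z) := by
      rw [← h3, hcdef]
      field_simp
    rw [h4] at h2
    exact h2
  let G : ℍ → ℂ := fun τ => c * Ψ (Periodic.qParam h τ)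
  have hGcomp : ∀ τ : ℍ, (G ∘ ofComplex) =ᶠ[𝓝 (τ : ℂ)] fun w => c * Ψ (Periodic.qParam h w) := by
    intro τ
    filter_upwards [isOpen_upperHalfPlaneSet.mem_nhds τ.2] with w hw
    simp only [G, Function.comp_apply, ofComplex_apply_of_im_pos hw]
  have hGderiv : ∀ τ : ℍ, HasDerivAt (G ∘ ofComplex) (g τ) (τ : ℂ) := by
    intro τ
    have := (hderiv τ τ.2).congr_of_eventuallyEq (hGcomp τ)
    rwa [hφdef, eq_cuspFunction τ hh.ne' hg.periodic] at this
  refine ⟨G, ⟨?_, ?_, ?_⟩, hGderiv⟩
  · rw [UpperHalfPlane.mdifferentiable_iff]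
    intro z hz
    exact (hGderiv ⟨z, hz⟩).differentiableAt.differentiableWithinAt
  · intro w
    by_cases hw : 0 < im w
    · have hw' : 0 < im (w + h) := by simpa using hw
      simp only [G, Function.comp_apply, ofComplex_apply_of_im_pos hw',
        ofComplex_apply_of_im_pos hw]
      congr 2
      show Periodic.qParam h (w + h) = Periodic.qParam h w
      unfold Periodic.qParam
      rw [mul_add, add_div, mul_div_cancel_right₀ _ hhc, Complex.exp_add, Complex.exp_two_pi_mul_I,
        mul_one]
    · have hw' : im (w + h) ≤ 0 := by simpa using not_lt.mp hw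
      simp only [Function.comp_apply, ofComplex_apply_of_im_nonpos hw',
        ofComplex_apply_of_im_nonpos (not_lt.mp hw)]
  · show Tendsto G atImInfty (𝓝 0)
    have hcont : ContinuousAt Ψ 0 :=
      (hΨ 0 (Metric.mem_ball_self one_pos)).continuousAt
    have h1 : Tendsto (fun τ : ℍ => Ψ (Periodic.qParam h τ)) atImInfty (𝓝 (Ψ 0)) :=
      hcont.tendsto.comp (qParam_tendsto_atImInfty hh)
    have h2 := h1.const_mul c
    rwa [hΨ0, mul_zero] at h2

end Fermat.Agent.S21
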