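import Mathlib

set_option autoImplicit false

namespace Fermat.Agent.S21.Shapiro

open scoped Pointwise

variable {G : Type*} [Group G] (Γ : Subgroup G)

/-- the `Γ`-valued cocycle attached to the section `Quotient.out` -/
noncomputable def gam (g : G) (x : G ⧸ Γ) : Γ :=
  ⟨(g • x).out⁻¹ * g * x.out, by
    have h : ((g • x).out : G ⧸ Γ) = ((g * x.out : G) : G ⧸ Γ) := by
      rw [QuotientGroup.out_eq']
      conv_lhs => rw [← QuotientGroup.out_eq' x]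
      rfl
    have := QuotientGroup.eq.1 h
    simpa [mul_assoc] using this⟩

theorem gam_coe (g : G) (x : G ⧸ Γ) : (gam Γ g x : G) = (g • x).out⁻¹ * g * x.out := rfl

theorem gam_mul (g h : G) (x : G ⧸ Γ) : gam Γ (g * h) x = gam Γ g (h • x) * gam Γ h x := by
  apply Subtype.ext
  simp only [gam_coe, Subgroup.coe_mul, mul_smul]
  group

/-- abstract cocycle condition for functions `G → (G ⧸ Γ → ℂ)` -/
def IsCoc (c : G → (G ⧸ Γ) → ℂ) : Prop :=
  ∀ g h x, c (g * h) x = c g (h • x) + c h x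

namespace IsCoc

variable {Γ}
variable {c c' : G → (G ⧸ Γ) → ℂ}

theorem one (hc : IsCoc Γ c) : c 1 = 0 := by
  funext x
  have := hc 1 1 x
  simp only [mul_one, one_smul] at this
  simpa using this

theorem inv (hc : IsCoc Γ c) (g : G) (x : G ⧸ Γ) : c g⁻¹ x = - c g (g⁻¹ • x) := by
  have := hc g g⁻¹ x
  rw [mul_inv_cancel, hc.one] at this
  simp only [Pi.zero_apply] at this
  linear_combination -this

theorem add (hc : IsCoc Γ c) (hc' : IsCoc Γ c') : IsCoc Γ (fun g x => c g x + c' g x) := by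
  intro g h x
  simp only [hc g h x, hc' g h x]
  ring

/-- two cocycles agreeing on a generating set agree everywhere -/
theorem eq_zero_of_generators (hc : IsCoc Γ c) {S : Set G} (hS : Subgroup.closure S = ⊤)
    (h : ∀ g ∈ S, c g = 0) (g : G) : c g = 0 := by
  have hg : g ∈ Subgroup.closure S := by rw [hS]; trivial
  induction hg using Subgroup.closure_induction with
  | mem x hx => exact h x hx
  | one => exact hc.one
  | mul x y _ _ hx hy =>
    funext z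
    rw [hc x y z, hx, hy]
    simp
  | inv x _ hx =>
    funext z
    rw [hc.inv x z, hx]
    simp

theorem pow_apply (hc : IsCoc Γ c) (g : G) (n : ℕ) (x : G ⧸ Γ) :
    c (g ^ n) x = ∑ i ∈ Finset.range n, c g (g ^ i • x) := by
  induction n generalizing x with
  | zero => simp [hc.one]
  | succ n ih =>
    rw [pow_succ, hc (g ^ n) g x, Finset.sum_range_succ', ih (g • x)]
    simp [pow_succ, mul_smul]

end IsCoc

/-- the cocycle attached to a homomorphism `ψ : Γ → ℂ` -/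
noncomputable def coc (ψ : Additive Γ →+ ℂ) (g : G) (x : G ⧸ Γ) : ℂ :=
  ψ (Additive.ofMul (gam Γ g x))

theorem isCoc_coc (ψ : Additive Γ →+ ℂ) : IsCoc Γ (coc Γ ψ) := by
  intro g h x
  simp only [coc, gam_mul, ofMul_mul, map_add]

/-- coboundary of a function on the coset space -/
def cob (w : (G ⧸ Γ) → ℂ) (g : G) (x : G ⧸ Γ) : ℂ := w (g • x) - w x

theorem isCoc_cob (w : (G ⧸ Γ) → ℂ) : IsCoc Γ (cob Γ w) := by
  intro g h x
  simp only [cob, mul_smul]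
  ring

theorem coc_add (ψ φ : Additive Γ →+ ℂ) (g : G) (x : G ⧸ Γ) :
    coc Γ (ψ + φ) g x = coc Γ ψ g x + coc Γ φ g x := rfl

theorem coc_smul (a : ℂ) (ψ : Additive Γ →+ ℂ) (g : G) (x : G ⧸ Γ) :
    coc Γ (a • ψ) g x = a * coc Γ ψ g x := rfl

variable {Γ}

theorem smul_eq_of_central {ε : G} (hε : ∀ g, ε * g = g * ε) (hεΓ : ε ∈ Γ) (x : G ⧸ Γ) :
    ε • x = x := by
  induction x using QuotientGroup.induction_on with
  | H g =>
    show ((ε * g : G) : G ⧸ Γ) = (g : G ⧸ Γ)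
    rw [hε g, QuotientGroup.eq]
    simpa using hεΓ

theorem gam_of_smul_eq {g : G} {x : G ⧸ Γ} (h : g • x = x) :
    (gam Γ g x : G) = x.out⁻¹ * g * x.out := by
  rw [gam_coe, h]

theorem coc_central (ψ : Additive Γ →+ ℂ) {ε : G} (hε : ∀ g, ε * g = g * ε) (hεΓ : ε ∈ Γ)
    (x : G ⧸ Γ) : coc Γ ψ ε x = ψ (Additive.ofMul ⟨ε, hεΓ⟩) := by
  have : gam Γ ε x = ⟨ε, hεΓ⟩ := by
    apply Subtype.ext
    rw [gam_of_smul_eq (smul_eq_of_central hε hεΓ x), mul_assoc, hε, ← mul_assoc]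
    simp
  rw [coc, this]

theorem coc_of_mem (ψ : Additive Γ →+ ℂ) (γ : Γ) :
    coc Γ ψ (γ : G) ((1 : G) : G ⧸ Γ) = ψ (Additive.ofMul γ) := by
  have hfix : (γ : G) • ((1 : G) : G ⧸ Γ) = ((1 : G) : G ⧸ Γ) := by
    show (((γ : G) * 1 : G) : G ⧸ Γ) = _
    rw [QuotientGroup.eq]
    simp
  have hr : (((1 : G) : G ⧸ Γ).out : G) ∈ Γ := by
    have := QuotientGroup.out_eq' ((1 : G) : G ⧸ Γ)
    rw [QuotientGroup.eq] at this
    simpa using Γ.inv_mem this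
  set r : Γ := ⟨_, hr⟩ with hrdef
  have : gam Γ (γ : G) ((1 : G) : G ⧸ Γ) = r⁻¹ * γ * r := by
    apply Subtype.ext
    rw [gam_of_smul_eq hfix]
    rfl
  rw [coc, this]
  simp only [ofMul_mul, ofMul_inv, map_add, map_neg]
  ring

/-! ### operators on functions on the coset space -/

section Operators

variable (Γ)

/-- pull back of functions along the action of `g` -/
noncomputable def pb (g : G) : ((G ⧸ Γ) → ℂ) →ₗ[ℂ] ((G ⧸ Γ) → ℂ) :=
  LinearMap.funLeft ℂ ℂ (fun x => g • x)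

@[simp] theorem pb_apply (g : G) (w : (G ⧸ Γ) → ℂ) (x : G ⧸ Γ) : pb Γ g w x = w (g • x) := rfl

theorem pb_one : pb Γ (1 : G) = LinearMap.id := by
  ext w x; simp

theorem pb_mul (g h : G) : pb Γ (g * h) = pb Γ h ∘ₗ pb Γ g := by
  ext w x; simp [mul_smul]

theorem pb_pow (g : G) (n : ℕ) : pb Γ (g ^ n) = (pb Γ g) ^ n := by
  induction n with
  | zero => simp [pb_one, Module.End.one_eq_id]
  | succ n ih =>
    rw [pow_succ, pb_mul, ih, pow_succ', Module.End.mul_eq_comp]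

/-- the invariants of `g` -/
noncomputable def inv (g : G) : Submodule ℂ ((G ⧸ Γ) → ℂ) :=
  LinearMap.ker (pb Γ g - LinearMap.id)

theorem mem_inv {g : G} {w : (G ⧸ Γ) → ℂ} : w ∈ inv Γ g ↔ pb Γ g w = w := by
  rw [inv, LinearMap.mem_ker, LinearMap.sub_apply, LinearMap.id_apply, sub_eq_zero]

end Operators

/-! ### averaging operators of finite order endomorphisms -/

section Averaging

variable {W : Type*} [AddCommGroup W] [Module ℂ W]

/-- the norm (averaging) operator `1 + τ + ... + τ^(n-1)` -/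
noncomputable def avg (τ : Module.End ℂ W) (n : ℕ) : Module.End ℂ W :=
  ∑ i ∈ Finset.range n, τ ^ i

theorem sub_one_mul_avg (τ : Module.End ℂ W) (n : ℕ) : (τ - 1) * avg τ n = τ ^ n - 1 :=
  mul_geom_sum τ n

theorem avg_apply_of_fixed {τ : Module.End ℂ W} {w : W} (h : τ w = w) (n : ℕ) :
    avg τ n w = (n : ℂ) • w := by
  have hpow : ∀ i : ℕ, (τ ^ i) w = w := by
    intro i
    induction i with
    | zero => simp
    | succ i ih => rw [pow_succ, Module.End.mul_apply, h, ih]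
  simp [avg, LinearMap.sum_apply, hpow, Nat.cast_smul_eq_nsmul]

theorem range_avg {τ : Module.End ℂ W} {n : ℕ} (hn : n ≠ 0) (hτ : τ ^ n = 1) :
    LinearMap.range (avg τ n) = LinearMap.ker (τ - 1) := by
  apply le_antisymm
  · rintro _ ⟨w, rfl⟩
    rw [LinearMap.mem_ker, ← Module.End.mul_apply, sub_one_mul_avg, hτ, sub_self]
    rfl
  · intro w hw
    rw [LinearMap.mem_ker, LinearMap.sub_apply, Module.End.one_apply, sub_eq_zero] at hw
    refine ⟨((n : ℂ)⁻¹) • w, ?_⟩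
    rw [map_smul, avg_apply_of_fixed hw, smul_smul, inv_mul_cancel₀ (Nat.cast_ne_zero.mpr hn),
      one_smul]

theorem finrank_ker_avg [FiniteDimensional ℂ W] {τ : Module.End ℂ W} {n : ℕ} (hn : n ≠ 0)
    (hτ : τ ^ n = 1) :
    Module.finrank ℂ (LinearMap.ker (avg τ n)) + Module.finrank ℂ (LinearMap.ker (τ - 1)) =
      Module.finrank ℂ W := by
  rw [← range_avg hn hτ, add_comm]
  exact LinearMap.finrank_range_add_finrank_ker (avg τ n)

end Averaging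

/-! ### consequences of the cocycle relation in terms of operators -/

section CocOps

variable {c : G → (G ⧸ Γ) → ℂ}

theorem IsCoc.pow_eq_avg (hc : IsCoc Γ c) (g : G) (n : ℕ) :
    c (g ^ n) = avg (pb Γ g) n (c g) := by
  funext x
  rw [hc.pow_apply, avg, LinearMap.sum_apply, Finset.sum_apply]
  refine Finset.sum_congr rfl fun i _ => ?_
  rw [← pb_pow, pb_apply]

theorem IsCoc.mul_eq (hc : IsCoc Γ c) (g h : G) : c (g * h) = pb Γ h (c g) + c h := by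
  funext x
  rw [hc g h x, Pi.add_apply, pb_apply]

end CocOps

variable (Γ) in
theorem exists_pow_smul_eq [Finite (G ⧸ Γ)] (t : G) : ∃ n : ℕ, n ≠ 0 ∧ ∀ x : G ⧸ Γ, t ^ n • x = x := by
  classical
  have hfin : IsOfFinOrder (MulAction.toPermHom G (G ⧸ Γ) t) := isOfFinOrder_of_finite _
  refine ⟨orderOf (MulAction.toPermHom G (G ⧸ Γ) t), hfin.orderOf_pos.ne', fun x => ?_⟩
  have h := pow_orderOf_eq_one (MulAction.toPermHom G (G ⧸ Γ) t)
  rw [← map_pow] at h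
  have := congrArg (fun e : Equiv.Perm (G ⧸ Γ) => e x) h
  simpa using this

/-! ### the connectivity lemma -/

section ZLemma

variable (Γ) in
open Classical in
/-- indicator function of a point -/
noncomputable def dl (y : G ⧸ Γ) : (G ⧸ Γ) → ℂ := Pi.single y (1 : ℂ)

open Classical in
theorem dl_apply (y x : G ⧸ Γ) : dl Γ y x = if x = y then 1 else 0 := by
  rw [dl, Pi.single_apply]

theorem pb_dl (g : G) (y : G ⧸ Γ) : pb Γ g (dl Γ y) = dl Γ (g⁻¹ • y) := by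
  classical
  funext x
  rw [pb_apply, dl_apply, dl_apply]
  by_cases h : g • x = y
  · have : x = g⁻¹ • y := by rw [← h, inv_smul_smul]
    rw [if_pos h, if_pos this]
  · have : x ≠ g⁻¹ • y := fun hx => h (by rw [hx, smul_inv_smul])
    rw [if_neg h, if_neg this]

variable (Γ) in
/-- the subspace `τ ker(1+σ) + ker(A_t)` -/
noncomputable def Zsp (s t : G) (n : ℕ) : Submodule ℂ ((G ⧸ Γ) → ℂ) :=
  (LinearMap.ker (avg (pb Γ s) 2)).map (pb Γ t) ⊔ LinearMap.ker (avg (pb Γ t) n)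

theorem avg_mul_sub_one {W : Type*} [AddCommGroup W] [Module ℂ W] (τ : Module.End ℂ W) (n : ℕ) :
    avg τ n * (τ - 1) = τ ^ n - 1 :=
  geom_sum_mul τ n

variable {s t : G} {n : ℕ}

theorem sub_pb_mem_ker_avg {g : G} {k : ℕ} (hk : pb Γ g ^ k = 1) (w : (G ⧸ Γ) → ℂ) :
    w - pb Γ g w ∈ LinearMap.ker (avg (pb Γ g) k) := by
  have h := avg_mul_sub_one (pb Γ g) k
  rw [hk, sub_self] at h
  have h2 := congrArg (fun f : Module.End ℂ ((G ⧸ Γ) → ℂ) => f w) h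
  simp only [Module.End.mul_apply, LinearMap.sub_apply, Module.End.one_apply,
    LinearMap.zero_apply] at h2
  rw [LinearMap.mem_ker, ← neg_sub, map_neg, h2, neg_zero]

theorem dl_sub_dl_inv_mem (hs2 : pb Γ s ^ 2 = 1) (htn : pb Γ t ^ n = 1) (y : G ⧸ Γ) :
    (dl Γ y - dl Γ (t⁻¹ • y) ∈ Zsp Γ s t n) ∧ (dl Γ y - dl Γ (s⁻¹ • y) ∈ Zsp Γ s t n) := by
  have ht : ∀ y : G ⧸ Γ, dl Γ y - dl Γ (t⁻¹ • y) ∈ Zsp Γ s t n := by
    intro y
    apply Submodule.mem_sup_right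
    have := sub_pb_mem_ker_avg htn (dl Γ y)
    rwa [pb_dl] at this
  refine ⟨ht y, ?_⟩
  have h1 : pb Γ t (dl Γ y - dl Γ (s⁻¹ • y)) ∈ Zsp Γ s t n := by
    apply Submodule.mem_sup_left
    refine Submodule.mem_map_of_mem ?_
    have := sub_pb_mem_ker_avg hs2 (dl Γ y)
    rwa [pb_dl] at this
  rw [map_sub, pb_dl, pb_dl] at h1
  have h2 := ht y
  have h3 := ht (s⁻¹ • y)
  have : dl Γ y - dl Γ (s⁻¹ • y) =
      (dl Γ y - dl Γ (t⁻¹ • y)) + (dl Γ (t⁻¹ • y) - dl Γ (t⁻¹ • s⁻¹ • y)) -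
      (dl Γ (s⁻¹ • y) - dl Γ (t⁻¹ • s⁻¹ • y)) := by abel
  rw [this]
  exact Submodule.sub_mem _ (Submodule.add_mem _ h2 h1) h3

theorem dl_sub_dl_smul_mem (hgen : Subgroup.closure {s, t} = ⊤)
    (hs2 : pb Γ s ^ 2 = 1) (htn : pb Γ t ^ n = 1) (g : G) :
    ∀ y : G ⧸ Γ, dl Γ y - dl Γ (g • y) ∈ Zsp Γ s t n := by
  have hg : g ∈ Subgroup.closure {s, t} := by rw [hgen]; trivial
  have key : ∀ h : G, (∀ y : G ⧸ Γ, dl Γ y - dl Γ (h⁻¹ • y) ∈ Zsp Γ s t n) →
      ∀ y : G ⧸ Γ, dl Γ y - dl Γ (h • y) ∈ Zsp Γ s t n := by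
    intro h hh y
    have := hh (h • y)
    rw [inv_smul_smul] at this
    have h2 := Submodule.neg_mem _ this
    rwa [neg_sub] at h2
  induction hg using Subgroup.closure_induction with
  | mem x hx =>
    rcases hx with rfl | rfl
    · exact key _ fun y => (dl_sub_dl_inv_mem hs2 htn y).2
    · exact key _ fun y => (dl_sub_dl_inv_mem hs2 htn y).1
  | one => intro y; simp
  | mul x z _ _ hx hz =>
    intro y
    have : dl Γ y - dl Γ ((x * z) • y) =
        (dl Γ y - dl Γ (z • y)) + (dl Γ (z • y) - dl Γ (x • z • y)) := by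
      rw [mul_smul]; abel
    rw [this]
    exact Submodule.add_mem _ (hz y) (hx (z • y))
  | inv x _ hx =>
    intro y
    have := hx (x⁻¹ • y)
    rw [smul_inv_smul] at this
    have h2 := Submodule.neg_mem _ this
    rwa [neg_sub] at h2

end ZLemma

section SumZero

variable [Fintype (G ⧸ Γ)]

variable (Γ) in
/-- the sum functional -/
noncomputable def sumF : ((G ⧸ Γ) → ℂ) →ₗ[ℂ] ℂ :=
  ∑ x : G ⧸ Γ, LinearMap.proj x

theorem sumF_apply (w : (G ⧸ Γ) → ℂ) : sumF Γ w = ∑ x, w x := by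
  simp [sumF, LinearMap.sum_apply]

theorem eq_sum_dl (w : (G ⧸ Γ) → ℂ) : w = ∑ x, w x • dl Γ x := by
  classical
  funext y
  rw [Finset.sum_apply]
  simp only [Pi.smul_apply, dl_apply, smul_eq_mul, mul_ite, mul_one, mul_zero]
  rw [Finset.sum_ite_eq]
  simp

variable {s t : G} {n : ℕ}

theorem ker_sumF_le_Zsp (hgen : Subgroup.closure {s, t} = ⊤)
    (hs2 : pb Γ s ^ 2 = 1) (htn : pb Γ t ^ n = 1) :
    LinearMap.ker (sumF Γ) ≤ Zsp Γ s t n := by
  intro w hw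
  rw [LinearMap.mem_ker, sumF_apply] at hw
  set x₀ : G ⧸ Γ := ((1 : G) : G ⧸ Γ)
  have h1 : w = ∑ x, w x • (dl Γ x - dl Γ x₀) := by
    conv_lhs => rw [eq_sum_dl w]
    simp only [smul_sub, Finset.sum_sub_distrib]
    rw [← Finset.sum_smul, hw, zero_smul, sub_zero]
  rw [h1]
  refine Submodule.sum_mem _ fun x _ => Submodule.smul_mem _ _ ?_
  obtain ⟨g, hg⟩ := MulAction.exists_smul_eq G x x₀
  rw [← hg]
  exact dl_sub_dl_smul_mem hgen hs2 htn g x

theorem finrank_ker_functional (f : ((G ⧸ Γ) → ℂ) →ₗ[ℂ] ℂ) :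
    Fintype.card (G ⧸ Γ) ≤ Module.finrank ℂ (LinearMap.ker f) + 1 := by
  have h := LinearMap.finrank_range_add_finrank_ker f
  rw [Module.finrank_fintype_fun_eq_card] at h
  have h2 : Module.finrank ℂ (LinearMap.range f) ≤ 1 := by
    have := Submodule.finrank_le (LinearMap.range f)
    simpa using this
  omega

end SumZero

/-! ### the main linear maps -/

section Main

variable (Γ) in
/-- `ψ ↦ coc ψ g` as a linear map -/
noncomputable def cocL (g : G) : (Additive Γ →+ ℂ) →ₗ[ℂ] ((G ⧸ Γ) → ℂ) where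
  toFun ψ := coc Γ ψ g
  map_add' ψ φ := by funext x; exact coc_add Γ ψ φ g x
  map_smul' a ψ := by funext x; exact coc_smul Γ a ψ g x

@[simp] theorem cocL_apply (g : G) (ψ : Additive Γ →+ ℂ) (x : G ⧸ Γ) :
    cocL Γ g ψ x = coc Γ ψ g x := rfl

variable (Γ) in
/-- `w ↦ cob w g` as a linear map -/
noncomputable def cobL (g : G) : ((G ⧸ Γ) → ℂ) →ₗ[ℂ] ((G ⧸ Γ) → ℂ) :=
  pb Γ g - LinearMap.id

@[simp] theorem cobL_apply (g : G) (w : (G ⧸ Γ) → ℂ) (x : G ⧸ Γ) :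
    cobL Γ g w x = cob Γ w g x := rfl

/-- the combined cocycle of a pair `(ψ, w)` -/
noncomputable def cc (ψ : Additive Γ →+ ℂ) (w : (G ⧸ Γ) → ℂ) (g : G) (x : G ⧸ Γ) : ℂ :=
  coc Γ ψ g x + cob Γ w g x

theorem isCoc_cc (ψ : Additive Γ →+ ℂ) (w : (G ⧸ Γ) → ℂ) : IsCoc Γ (cc ψ w) :=
  (isCoc_coc Γ ψ).add (isCoc_cob Γ w)

theorem cc_eq (ψ : Additive Γ →+ ℂ) (w : (G ⧸ Γ) → ℂ) (g : G) :
    cc ψ w g = cocL Γ g ψ + cobL Γ g w := rfl

variable {s t ε : G}

theorem hom_central_eq_zero (ψ : Additive Γ →+ ℂ) (hεΓ : ε ∈ Γ) (hε2 : ε * ε = 1) :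
    ψ (Additive.ofMul ⟨ε, hεΓ⟩) = 0 := by
  have h1 : (⟨ε, hεΓ⟩ : Γ) * ⟨ε, hεΓ⟩ = 1 := Subtype.ext hε2
  have h2 := congrArg (fun γ : Γ => ψ (Additive.ofMul γ)) h1
  simp only [ofMul_mul, map_add, ofMul_one, map_zero] at h2
  have : (2 : ℂ) * ψ (Additive.ofMul ⟨ε, hεΓ⟩) = 0 := by linear_combination h2
  simpa using this

theorem cc_central (ψ : Additive Γ →+ ℂ) (w : (G ⧸ Γ) → ℂ) (hε : ∀ g, ε * g = g * ε)
    (hεΓ : ε ∈ Γ) (hε2 : ε * ε = 1) : cc ψ w ε = 0 := by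
  funext x
  rw [cc, coc_central ψ hε hεΓ, hom_central_eq_zero ψ hεΓ hε2, cob, smul_eq_of_central hε hεΓ]
  simp

theorem cc_pow_of_fixed {V : Submodule ℂ (Additive Γ →+ ℂ)}
    (hV : ∀ ψ ∈ V, ∀ (r : G) (k : ℕ) (h : r⁻¹ * t ^ k * r ∈ Γ), ψ (Additive.ofMul ⟨_, h⟩) = 0)
    {ψ : Additive Γ →+ ℂ} (hψ : ψ ∈ V) (w : (G ⧸ Γ) → ℂ) {n : ℕ}
    (hn : ∀ x : G ⧸ Γ, t ^ n • x = x) : cc ψ w (t ^ n) = 0 := by
  funext x
  have hmem : x.out⁻¹ * t ^ n * x.out ∈ Γ := by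
    rw [← gam_of_smul_eq (hn x)]
    exact (gam Γ (t ^ n) x).2
  have : gam Γ (t ^ n) x = ⟨_, hmem⟩ := Subtype.ext (gam_of_smul_eq (hn x))
  rw [cc, coc, this, hV ψ hψ x.out n hmem, cob, hn x]
  simp

theorem pb_eq_one_of_fixed {g : G} (h : ∀ x : G ⧸ Γ, g • x = x) : pb Γ g = 1 := by
  ext w x
  simp [h x]

theorem eq_zero_of_cc_eq_zero (hgen : Subgroup.closure {s, t} = ⊤) (ψ : Additive Γ →+ ℂ)
    (w : (G ⧸ Γ) → ℂ) (h1 : cc ψ w s = 0) (h2 : cc ψ w t = 0) :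
    ψ = 0 ∧ ∀ x : G ⧸ Γ, w x = w ((1 : G) : G ⧸ Γ) := by
  have hall : ∀ g : G, cc ψ w g = 0 :=
    (isCoc_cc ψ w).eq_zero_of_generators hgen (by
      rintro g (rfl | rfl)
      · exact h1
      · exact h2)
  have hfix : ∀ γ : Γ, (γ : G) • ((1 : G) : G ⧸ Γ) = ((1 : G) : G ⧸ Γ) := by
    intro γ
    show (((γ : G) * 1 : G) : G ⧸ Γ) = _
    rw [QuotientGroup.eq]
    simp
  have hψ : ψ = 0 := by
    refine AddMonoidHom.ext fun γ' => ?_
    have := congrFun (hall ((Additive.toMul γ' : Γ) : G)) ((1 : G) : G ⧸ Γ)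
    rw [cc, coc_of_mem, cob, hfix] at this
    simpa using this
  refine ⟨hψ, fun x => ?_⟩
  obtain ⟨g, hg⟩ := MulAction.exists_smul_eq G ((1 : G) : G ⧸ Γ) x
  have := congrFun (hall g) ((1 : G) : G ⧸ Γ)
  rw [cc, hψ, cob, hg] at this
  simp only [coc, AddMonoidHom.zero_apply, zero_add, Pi.zero_apply] at this
  exact sub_eq_zero.1 this

theorem finrank_map_ge {W : Type*} [AddCommGroup W] [Module ℂ W] [FiniteDimensional ℂ W]
    (f : W →ₗ[ℂ] W) (p : Submodule ℂ W) :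
    Module.finrank ℂ p ≤ Module.finrank ℂ (p.map f) + Module.finrank ℂ (LinearMap.ker f) := by
  have h := LinearMap.finrank_range_add_finrank_ker (f.domRestrict p)
  rw [LinearMap.range_domRestrict] at h
  have h2 : Module.finrank ℂ (LinearMap.ker (f.domRestrict p)) ≤
      Module.finrank ℂ (LinearMap.ker f) := by
    refine LinearMap.finrank_le_finrank_of_injective
      (f := (p.subtype.comp (LinearMap.ker (f.domRestrict p)).subtype).codRestrict
        (LinearMap.ker f) (fun x => ?_)) ?_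
    · have := x.2
      rw [LinearMap.mem_ker, LinearMap.domRestrict_apply] at this
      simpa using this
    · intro x y hxy
      have := congrArg Subtype.val hxy
      simp only [LinearMap.codRestrict_apply, LinearMap.coe_comp, Submodule.coe_subtype,
        Function.comp_apply] at this
      exact Subtype.ext (Subtype.ext this)
  omega

theorem main_bound [Fintype (G ⧸ Γ)] (hgen : Subgroup.closure {s, t} = ⊤)
    (hε : ∀ g, ε * g = g * ε) (hεΓ : ε ∈ Γ) (hε2 : ε * ε = 1) (hs : s * s = ε)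
    (hu : (s * t) ^ 3 = ε) (V : Submodule ℂ (Additive Γ →+ ℂ))
    (hV : ∀ ψ ∈ V, ∀ (r : G) (k : ℕ) (h : r⁻¹ * t ^ k * r ∈ Γ), ψ (Additive.ofMul ⟨_, h⟩) = 0) :
    Module.finrank ℂ V + Module.finrank ℂ (inv Γ s) + Module.finrank ℂ (inv Γ (s * t))
      + Module.finrank ℂ (inv Γ t) ≤ Fintype.card (G ⧸ Γ) + 2 := by
  obtain ⟨n, hn0, hn⟩ := exists_pow_smul_eq Γ t
  have hεfix : ∀ x : G ⧸ Γ, ε • x = x := smul_eq_of_central hε hεΓ
  have hs2 : pb Γ s ^ 2 = 1 := by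
    rw [← pb_pow, pow_two, hs]; exact pb_eq_one_of_fixed hεfix
  have hu3 : pb Γ (s * t) ^ 3 = 1 := by
    rw [← pb_pow, hu]; exact pb_eq_one_of_fixed hεfix
  have htn : pb Γ t ^ n = 1 := by
    rw [← pb_pow]; exact pb_eq_one_of_fixed hn
  -- dimension facts
  have dS : Module.finrank ℂ (LinearMap.ker (avg (pb Γ s) 2)) + Module.finrank ℂ (inv Γ s) =
      Fintype.card (G ⧸ Γ) := by
    rw [← Module.finrank_fintype_fun_eq_card (R := ℂ)]
    exact finrank_ker_avg two_ne_zero hs2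
  have dT : Module.finrank ℂ (LinearMap.ker (avg (pb Γ t) n)) + Module.finrank ℂ (inv Γ t) =
      Fintype.card (G ⧸ Γ) := by
    rw [← Module.finrank_fintype_fun_eq_card (R := ℂ)]
    exact finrank_ker_avg hn0 htn
  have dU : Module.finrank ℂ (LinearMap.ker (avg (pb Γ (s * t)) 3)) +
      Module.finrank ℂ (inv Γ (s * t)) = Fintype.card (G ⧸ Γ) := by
    rw [← Module.finrank_fintype_fun_eq_card (R := ℂ)]
    exact finrank_ker_avg three_ne_zero hu3
  set x₀ : G ⧸ Γ := ((1 : G) : G ⧸ Γ) with hx₀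
  set W₁ : Submodule ℂ ((G ⧸ Γ) → ℂ) := LinearMap.ker (LinearMap.proj x₀) with hW₁
  have dW₁ : Fintype.card (G ⧸ Γ) ≤ Module.finrank ℂ W₁ + 1 := finrank_ker_functional _
  -- the maps
  let Ds : (V × W₁) →ₗ[ℂ] ((G ⧸ Γ) → ℂ) :=
    (cocL Γ s ∘ₗ V.subtype) ∘ₗ LinearMap.fst ℂ V W₁ +
      (cobL Γ s ∘ₗ W₁.subtype) ∘ₗ LinearMap.snd ℂ V W₁
  let Dt : (V × W₁) →ₗ[ℂ] ((G ⧸ Γ) → ℂ) :=
    (cocL Γ t ∘ₗ V.subtype) ∘ₗ LinearMap.fst ℂ V W₁ +
      (cobL Γ t ∘ₗ W₁.subtype) ∘ₗ LinearMap.snd ℂ V W₁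
  have hDs_eq : ∀ p : V × W₁, Ds p = cc (p.1 : Additive Γ →+ ℂ) (p.2 : (G ⧸ Γ) → ℂ) s :=
    fun p => rfl
  have hDt_eq : ∀ p : V × W₁, Dt p = cc (p.1 : Additive Γ →+ ℂ) (p.2 : (G ⧸ Γ) → ℂ) t :=
    fun p => rfl
  have hDs : ∀ p : V × W₁, Ds p ∈ LinearMap.ker (avg (pb Γ s) 2) := by
    intro p
    rw [LinearMap.mem_ker, hDs_eq, ← (isCoc_cc _ _).pow_eq_avg, pow_two, hs,
      cc_central _ _ hε hεΓ hε2]
  have hDt : ∀ p : V × W₁, Dt p ∈ LinearMap.ker (avg (pb Γ t) n) := by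
    intro p
    rw [LinearMap.mem_ker, hDt_eq, ← (isCoc_cc _ _).pow_eq_avg, cc_pow_of_fixed hV p.1.2 _ hn]
  let D : (V × W₁) →ₗ[ℂ]
      (LinearMap.ker (avg (pb Γ s) 2)) × (LinearMap.ker (avg (pb Γ t) n)) :=
    LinearMap.prod (Ds.codRestrict _ hDs) (Dt.codRestrict _ hDt)
  let Θ : ((LinearMap.ker (avg (pb Γ s) 2)) × (LinearMap.ker (avg (pb Γ t) n))) →ₗ[ℂ]
      ((G ⧸ Γ) → ℂ) :=
    avg (pb Γ (s * t)) 3 ∘ₗ
      ((pb Γ t ∘ₗ (LinearMap.ker (avg (pb Γ s) 2)).subtype) ∘ₗ LinearMap.fst ℂ _ _ +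
        (LinearMap.ker (avg (pb Γ t) n)).subtype ∘ₗ LinearMap.snd ℂ _ _)
  have hΘD : ∀ p : V × W₁, D p ∈ LinearMap.ker Θ := by
    intro p
    rw [LinearMap.mem_ker]
    show avg (pb Γ (s * t)) 3 (pb Γ t (Ds p) + Dt p) = 0
    rw [hDs_eq, hDt_eq, ← (isCoc_cc _ _).mul_eq, ← (isCoc_cc _ _).pow_eq_avg, hu,
      cc_central _ _ hε hεΓ hε2]
  have hDinj : Function.Injective D := by
    rw [← LinearMap.ker_eq_bot, LinearMap.ker_eq_bot']
    intro p hp
    have h1 : Ds p = 0 := congrArg (fun q => ((q.1 : _) : (G ⧸ Γ) → ℂ)) hp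
    have h2 : Dt p = 0 := congrArg (fun q => ((q.2 : _) : (G ⧸ Γ) → ℂ)) hp
    rw [hDs_eq] at h1
    rw [hDt_eq] at h2
    obtain ⟨hψ, hw⟩ := eq_zero_of_cc_eq_zero hgen _ _ h1 h2
    have hw0 : (p.2 : (G ⧸ Γ) → ℂ) x₀ = 0 := LinearMap.mem_ker.1 p.2.2
    refine Prod.ext (Subtype.ext hψ) (Subtype.ext ?_)
    funext x
    rw [hw x, hw0]
    rfl
  -- finite dimensionality
  have : FiniteDimensional ℂ (V × W₁) := FiniteDimensional.of_injective D hDinj
  have : FiniteDimensional ℂ V :=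
    FiniteDimensional.of_injective (LinearMap.inl ℂ V W₁) LinearMap.inl_injective
  -- first inequality
  have e1 : Module.finrank ℂ V + Module.finrank ℂ W₁ ≤ Module.finrank ℂ (LinearMap.ker Θ) := by
    rw [← Module.finrank_prod]
    exact LinearMap.finrank_le_finrank_of_injective (f := D.codRestrict _ hΘD)
      (fun a b hab => hDinj (congrArg Subtype.val hab))
  -- rank nullity for Θ
  have e2 := LinearMap.finrank_range_add_finrank_ker Θ
  rw [Module.finrank_prod] at e2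
  -- the range of Θ is large
  have hrange : (LinearMap.ker (sumF Γ)).map (avg (pb Γ (s * t)) 3) ≤ LinearMap.range Θ := by
    rintro _ ⟨w, hw, rfl⟩
    have hwZ := ker_sumF_le_Zsp hgen hs2 htn hw
    rw [Zsp, Submodule.mem_sup] at hwZ
    obtain ⟨y, ⟨a, ha, rfl⟩, d, hd, rfl⟩ := hwZ
    exact ⟨(⟨a, ha⟩, ⟨d, hd⟩), rfl⟩
  have e3 := Submodule.finrank_mono hrange
  have e4 := finrank_map_ge (avg (pb Γ (s * t)) 3) (LinearMap.ker (sumF Γ))
  have e5 : Fintype.card (G ⧸ Γ) ≤ Module.finrank ℂ (LinearMap.ker (sumF Γ)) + 1 :=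
    finrank_ker_functional _
  omega

end Main

end Fermat.Agent.S21.Shapiro
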